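import Fermat.Agent.EC.Weil.Miller
import Fermat.Agent.HT.Ell.Lattice
import Fermat.Agent.HT.Ell.Uniform
import Fermat.Agent.EC.PointIso
import Fermat.Agent.EC.Torsion
import Fermat.Agent.GR.RatInstances
import Fermat.Prelude.Def_FreyPackage_DetCyclotomic
import Mathlib.AlgebraicGeometry.EllipticCurve.NormalForms
import Mathlib.LinearAlgebra.FiniteDimensional.Lemmas
import Mathlib.RingTheory.RootsOfUnity.Complex

/-!
# The determinant of `E[n]` is the cyclotomic character (`n` prime)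

Miller's formula makes the pairing rational; its value over `ℂ` is `exp (2 π i det / n)`.
-/

set_option autoImplicit false

noncomputable section

open WeierstrassCurve WeierstrassCurve.Affine
open scoped WeierstrassCurve.Affine

namespace Fermat.EC.Weil

section functorial

variable {F K : Type*} [Field F] [Field K] [DecidableEq F] [DecidableEq K] [Algebra ℚ F]
  [Algebra ℚ K] (S : WeierstrassCurve ℚ) (f : F →ₐ[ℚ] K)

/-- The abscissa commutes with base change of points along a `ℚ`-algebra map. -/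
lemma xc_map (P : ((S.toAffine)⁄F).Point) : xc _ (Point.map f P) = f (xc _ P) := by
  rcases P with _ | ⟨x, y, h⟩
  · exact (map_zero f).symm
  · rfl

/-- The ordinate commutes with base change of points along a `ℚ`-algebra map. -/
lemma yc_map (P : ((S.toAffine)⁄F).Point) : yc _ (Point.map f P) = f (yc _ P) := by
  rcases P with _ | ⟨x, y, h⟩
  · exact (map_zero f).symm
  · rfl

omit [DecidableEq F] [DecidableEq K] in
/-- The coefficient `a₄` of the base change of a curve over `ℚ` is the image of `a₄`. -/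
lemma a₄_map : ((S.toAffine)⁄K).a₄ = f ((S.toAffine)⁄F).a₄ := (f.commutes S.a₄).symm

/-- Miller's function commutes with base change, being rational in the coordinates. -/
lemma miller_map (n : ℕ) (P Q : ((S.toAffine)⁄F).Point) :
    miller _ n (Point.map f P) (Point.map f Q) = f (miller _ n P Q) := by
  simp only [miller, hh, tang, xc_map, yc_map, a₄_map S f, ← map_nsmul, map_mul, map_prod,
    map_sub, map_div₀, map_add, map_pow, map_ofNat, apply_ite f]

/-- The pairing commutes with base change, so it is Galois equivariant. -/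
lemma pairing_map (n : ℕ) (P Q : ((S.toAffine)⁄F).Point) :
    pairing _ n (Point.map f P) (Point.map f Q) = f (pairing _ n P Q) := by
  simp only [pairing, miller_map, map_div₀, map_neg]

end functorial

/-- Every short curve over `ℂ` is uniformised by a positively oriented period pair. -/
theorem exists_periods (V : Affine ℂ) (h1 : V.a₁ = 0) (h2 : V.a₂ = 0) (h3 : V.a₃ = 0)
    (hΔ : WeierstrassCurve.Δ V ≠ 0) :
    ∃ L : PeriodPair, V = HT.Ell.curve L ∧ L.g₂ ^ 3 - 27 * L.g₃ ^ 2 ≠ 0 ∧ 0 < (ltau L).im := by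
  have hV : WeierstrassCurve.Δ V = (-4 * V.a₄) ^ 3 - 27 * (-4 * V.a₆) ^ 2 := by
    simp only [WeierstrassCurve.Δ, b₂, b₄, b₆, b₈, h1, h2, h3]
    ring
  obtain ⟨L, hg2, hg3⟩ := HT.Ell.exists_periodPair (-4 * V.a₄) (-4 * V.a₆) (hV ▸ hΔ)
  have hcurve : ∀ L' : PeriodPair, L'.g₂ = -4 * V.a₄ → L'.g₃ = -4 * V.a₆ →
      V = HT.Ell.curve L' := by
    intro L' e2 e3
    ext <;> simp [HT.Ell.curve, h1, h2, h3, e2, e3]
  have him : (ltau L).im ≠ 0 := by
    intro h0
    have hω := ω₁_ne_zero L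
    have hr : ((ltau L).re : ℂ) * L.ω₁ = L.ω₂ := by
      have e : ((ltau L).re : ℂ) = ltau L := Complex.ext (by simp) (by simp [h0])
      rw [e, ltau, div_mul_cancel₀ _ hω]
    have := (LinearIndependent.pair_iff.1 L.indep) (ltau L).re (-1)
      (by simp [Complex.real_smul, hr])
    exact absurd this.2 (by norm_num)
  -- swap the two periods if `τ` lies in the lower half plane
  rcases lt_or_gt_of_ne him with h | h
  · let L' : PeriodPair := ⟨L.ω₂, L.ω₁, LinearIndependent.pair_iff.2 fun s t e => by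
      have := (LinearIndependent.pair_iff.1 L.indep) t s (by rw [add_comm]; exact e)
      exact ⟨this.2, this.1⟩⟩
    have hlat : L'.lattice = L.lattice := by
      change Submodule.span ℤ {L.ω₂, L.ω₁} = Submodule.span ℤ {L.ω₁, L.ω₂}
      rw [Set.pair_comm]
    have e2 : L'.g₂ = L.g₂ := by simp [PeriodPair.g₂, HT.Ell.periodPair_G_congr hlat]
    have e3 : L'.g₃ = L.g₃ := by simp [PeriodPair.g₃, HT.Ell.periodPair_G_congr hlat]
    refine ⟨L', hcurve L' (e2.trans hg2) (e3.trans hg3), ?_, ?_⟩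
    · rw [e2, e3, hg2, hg3, ← hV]; exact hΔ
    · have : ltau L' = (ltau L)⁻¹ := by simp [ltau, L', inv_div]
      rw [this, Complex.inv_im]
      exact div_pos (neg_pos.mpr h) (Complex.normSq_pos.mpr fun e => him (by simp [e]))
  · exact ⟨L, hcurve L hg2 hg3, by rw [hg2, hg3, ← hV]; exact hΔ, h⟩

open Classical in
/-- The pairing over `ℂ` is alternating bilinear and non-degenerate. -/
theorem pairing_complex (V : Affine ℂ) (h1 : V.a₁ = 0) (h2 : V.a₂ = 0) (h3 : V.a₃ = 0)
    (hΔV : WeierstrassCurve.Δ V ≠ 0) {n : ℕ} (hn : n.Prime) (hn2 : n ≠ 2) (P Q : V.Point)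
    (hP : n • P = 0) (hQ : n • Q = 0)
    (hind : ∀ x y : ℤ, x • P + y • Q = 0 → (n : ℤ) ∣ x ∧ (n : ℤ) ∣ y) :
    ∃ ζ : ℂ, IsPrimitiveRoot ζ n ∧ ∀ α β γ δ : ℤ, ¬ (n : ℤ) ∣ α * δ - β * γ →
      pairing V n (α • P + γ • Q) (β • P + δ • Q) = ζ ^ (α * δ - β * γ) := by
  obtain ⟨L, rfl, hΔ, hor⟩ := exists_periods V h1 h2 h3 hΔV
  obtain ⟨u, rfl⟩ := HT.Ell.ptHom_surjective L hΔ P
  obtain ⟨v, rfl⟩ := HT.Ell.ptHom_surjective L hΔ Q
  have hn' : Prime (n : ℤ) := Nat.prime_iff_prime_int.mp hn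
  have hn0 : (n : ℂ) ≠ 0 := Nat.cast_ne_zero.mpr hn.ne_zero
  rw [← map_nsmul, HT.Ell.ptHom_eq_zero_iff, nsmul_eq_mul, PeriodPair.mem_lattice] at hP hQ
  obtain ⟨a, b, hu'⟩ := hP
  obtain ⟨c, d, hv'⟩ := hQ
  have hu := hu'.symm
  have hv := hv'.symm
  have hlat : ∀ x y : ℤ, (x : ℂ) * u + y * v ∈ L.lattice → (n : ℤ) ∣ x ∧ (n : ℤ) ∣ y := by
    intro x y hxy
    refine hind x y ?_
    rw [← map_zsmul, ← map_zsmul, ← map_add, zsmul_eq_mul, zsmul_eq_mul]
    exact (HT.Ell.ptHom_eq_zero_iff L hΔ _).mpr hxy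
  -- the determinant of the lattice coordinates of `n u`, `n v` is prime to `n`
  have hD : ¬ (n : ℤ) ∣ a * d - b * c := by
    rintro ⟨k, hk⟩
    have hk' : (a : ℂ) * d - b * c = n * k := by exact_mod_cast hk
    have m1 : ((d : ℤ) : ℂ) * u + ((-b : ℤ) : ℂ) * v ∈ L.lattice := by
      refine PeriodPair.mem_lattice.mpr ⟨k, 0, mul_left_cancel₀ hn0 ?_⟩
      push_cast
      linear_combination -(d : ℂ) * hu + (b : ℂ) * hv - L.ω₁ * hk'
    have m2 : ((-c : ℤ) : ℂ) * u + ((a : ℤ) : ℂ) * v ∈ L.lattice := by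
      refine PeriodPair.mem_lattice.mpr ⟨0, k, mul_left_cancel₀ hn0 ?_⟩
      push_cast
      linear_combination (c : ℂ) * hu - (a : ℂ) * hv - L.ω₂ * hk'
    obtain ⟨b', hb⟩ := dvd_neg.mp (hlat _ _ m1).2
    obtain ⟨a', ha⟩ := (hlat _ _ m2).2
    have hmem : ((1 : ℤ) : ℂ) * u + ((0 : ℤ) : ℂ) * v ∈ L.lattice := by
      refine PeriodPair.mem_lattice.mpr ⟨a', b', mul_left_cancel₀ hn0 ?_⟩
      rw [ha, hb] at hu
      push_cast at hu ⊢
      linear_combination -hu
    exact hn'.not_dvd_one (hlat _ _ hmem).1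
  -- `ζ` is the value of the pairing at `(P, Q)`; bilinearity is that of the exponent
  refine ⟨e2pi ((a * d - b * c : ℤ) / (n : ℂ)), ?_, fun α β γ δ hdet => ?_⟩
  · have e : e2pi ((a * d - b * c : ℤ) / (n : ℂ)) =
        Complex.exp (2 * Real.pi * Complex.I / n) ^ (a * d - b * c : ℤ) := by
      rw [show (2 : ℂ) * Real.pi * Complex.I / n = 2 * Real.pi * Complex.I * (1 / (n : ℂ)) by ring,
        ← e2pi, ← e2pi_int_mul, mul_one_div]
    rw [e]
    refine (Complex.isPrimitiveRoot_exp n hn.ne_zero).zpow_of_gcd_eq_one _ ?_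
    exact Int.isCoprime_iff_gcd_eq_one.mp ((hn'.coprime_iff_not_dvd.mpr hD).symm)
  rw [← e2pi_int_mul, ← map_zsmul, ← map_zsmul, ← map_zsmul, ← map_zsmul, ← map_add, ← map_add]
  rw [zsmul_eq_mul, zsmul_eq_mul, zsmul_eq_mul, zsmul_eq_mul]
  rw [pairing_eq L hΔ hor hn hn2 (a := α * a + γ * c) (b := α * b + γ * d)
    (c := β * a + δ * c) (d := β * b + δ * d)]
  · congr 1
    push_cast
    ring
  · push_cast
    linear_combination (α : ℂ) * hu + (γ : ℂ) * hv
  · push_cast
    linear_combination (β : ℂ) * hu + (δ : ℂ) * hv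
  · intro i hi hmem
    have := hlat (i * α) (i * γ) (by convert hmem using 1; push_cast; ring)
    have hi' : ¬ (n : ℤ) ∣ (i : ℤ) := fun e => hi (Int.natCast_dvd_natCast.mp e)
    exact hdet (dvd_sub (((hn'.dvd_mul.mp this.1).resolve_left hi').mul_right δ)
      (((hn'.dvd_mul.mp this.2).resolve_left hi').mul_left β))
  · intro i hi hmem
    have := hlat (i * β) (i * δ) (by convert hmem using 1; push_cast; ring)
    have hi' : ¬ (n : ℤ) ∣ (i : ℤ) := fun e => hi (Int.natCast_dvd_natCast.mp e)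
    exact hdet (dvd_sub (((hn'.dvd_mul.mp this.2).resolve_left hi').mul_left α)
      (((hn'.dvd_mul.mp this.1).resolve_left hi').mul_right γ))
  · intro i hmem
    obtain ⟨hx, hy⟩ := hlat (β + i * α) (δ + i * γ) (by convert hmem using 1; push_cast; ring)
    exact hdet (by
      rw [show α * δ - β * γ = α * (δ + i * γ) - γ * (β + i * α) by ring]
      exact dvd_sub (hy.mul_left _) (hx.mul_left _))
  · intro i hmem
    obtain ⟨hx, hy⟩ := hlat (α + i * β) (γ + i * δ) (by convert hmem using 1; push_cast; ring)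
    exact hdet (by
      rw [show α * δ - β * γ = δ * (α + i * β) - β * (γ + i * δ) by ring]
      exact dvd_sub (hx.mul_left _) (hy.mul_left _))

local notation "ℚbar" => AlgebraicClosure ℚ

/-- Galois acts on the pairing of a short curve through the determinant. -/
theorem exists_zeta_det (S : WeierstrassCurve ℚ) (h1 : S.a₁ = 0) (h2 : S.a₂ = 0) (h3 : S.a₃ = 0)
    (hΔ : S.Δ ≠ 0) [DecidableEq ℚbar] {n : ℕ} (hn : n.Prime) (hn2 : n ≠ 2)
    (σ : ℚbar ≃ₐ[ℚ] ℚbar) (P Q : ((S.toAffine)⁄ℚbar).Point) (hP : n • P = 0) (hQ : n • Q = 0)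
    (hind : ∀ x y : ℤ, x • P + y • Q = 0 → (n : ℤ) ∣ x ∧ (n : ℤ) ∣ y) {α β γ δ : ℤ}
    (hσP : σ • P = α • P + γ • Q) (hσQ : σ • Q = β • P + δ • Q)
    (hdet : ¬ (n : ℤ) ∣ α * δ - β * γ) :
    ∃ ζ : ℚbar, IsPrimitiveRoot ζ n ∧ σ ζ = ζ ^ (α * δ - β * γ) := by
  classical
  let ι : ℚbar →ₐ[ℚ] ℂ := IsAlgClosed.lift
  have hinj := Point.map_injective (W' := S.toAffine) ι
  obtain ⟨ζ, hζ, hval⟩ := pairing_complex ((S.toAffine)⁄ℂ)
    (by simpa using congrArg (algebraMap ℚ ℂ) h1) (by simpa using congrArg (algebraMap ℚ ℂ) h2)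
    (by simpa using congrArg (algebraMap ℚ ℂ) h3)
    (by change (S.map (algebraMap ℚ ℂ)).Δ ≠ 0
        rw [WeierstrassCurve.map_Δ]; exact (map_ne_zero _).mpr hΔ) hn hn2
    (Point.map ι P) (Point.map ι Q) (by rw [← map_nsmul, hP, map_zero])
    (by rw [← map_nsmul, hQ, map_zero])
    fun x y e => hind x y (hinj (by rw [map_zero, map_add, map_zsmul, map_zsmul]; exact e))
  have hw : ι (pairing _ n P Q) = ζ := by
    rw [← pairing_map]
    have := hval 1 0 0 1 (fun e => (Nat.prime_iff_prime_int.mp hn).not_dvd_one (by simpa using e))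
    simpa using this
  refine ⟨pairing _ n P Q, (hw.symm ▸
    hζ : IsPrimitiveRoot (ι (pairing _ n P Q)) n).of_map_of_injective ι.injective, ι.injective ?_⟩
  change ι _ = ι _
  rw [map_zpow₀, hw, ← hval α β γ δ hdet]
  have e : σ (pairing _ n P Q) = pairing _ n (σ • P) (σ • Q) :=
    (pairing_map S (σ : ℚbar →ₐ[ℚ] ℚbar) n P Q).symm
  rw [e, hσP, hσQ, ← pairing_map, map_add, map_add, map_zsmul, map_zsmul, map_zsmul, map_zsmul]

/-- Every curve over `ℚ` is Galois-equivariantly a short one on `ℚbar`-points. -/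
theorem exists_short (W : WeierstrassCurve ℚ) (hΔ : W.Δ ≠ 0) [DecidableEq ℚbar] :
    ∃ S : WeierstrassCurve ℚ, S.a₁ = 0 ∧ S.a₂ = 0 ∧ S.a₃ = 0 ∧ S.Δ ≠ 0 ∧
      ∃ φ : ((W.toAffine)⁄ℚbar).Point →+ ((S.toAffine)⁄ℚbar).Point, Function.Injective φ ∧
        ∀ (σ : ℚbar ≃ₐ[ℚ] ℚbar) (P : ((W.toAffine)⁄ℚbar).Point), φ (σ • P) = σ • φ P := by
  let : Invertible (2 : ℚ) := invertibleOfNonzero two_ne_zero
  let : Invertible (3 : ℚ) := invertibleOfNonzero three_ne_zero
  set C := W.toShortNF with hC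
  have hS := W.toShortNF_spec
  refine ⟨C • W, hS.a₁, hS.a₂, hS.a₃, ?_, ?_⟩
  · rw [variableChange_Δ]
    exact mul_ne_zero (pow_ne_zero _ (Units.ne_zero _)) hΔ
  set C' := C.map (algebraMap ℚ ℚbar) with hC'
  have he : changed C' ((W.toAffine)⁄ℚbar) = (((C • W).toAffine)⁄ℚbar) :=
    WeierstrassCurve.map_variableChange W C _
  refine ⟨(castHom he).comp (pointHom C' _),
    (castHom_injective he).comp (pointHom_injective C' _), fun σ P => ?_⟩
  rcases P with _ | ⟨x, y, hxy⟩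
  · simp only [← Point.zero_def, _root_.map_zero]
    rw [show σ • (0 : ((W.toAffine)⁄ℚbar).Point) = 0 from rfl, _root_.map_zero]
    rfl
  · simp only [Point.algEquiv_smul_def, Point.map_some, AddMonoidHom.comp_apply, pointHom_some,
      castHom_some, Point.some.injEq]
    constructor <;>
      simp [newX, newY, hC', VariableChange.map, map_div₀]

/-- **`det ρ = χ`** on the `n`-torsion, for an odd prime `n`. -/
theorem galoisRepDet_eq_cyclotomic [DecidableEq ℚbar] (W : WeierstrassCurve ℚ) (hΔ : W.Δ ≠ 0)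
    {n : ℕ} [NeZero n] (hn : n.Prime) (hn2 : n ≠ 2)
    (hcard : Nat.card (rootsOfUnity n ℚbar) = n) :
    WeierstrassCurve.Affine.Point.GaloisRepDetEqCyclotomic (K := ℚbar) ℚ W n hcard := by
  intro σ
  have := Fact.mk hn
  set T := Submodule.torsionBy ℤ ((W.toAffine)⁄ℚbar).Point n
  have hT : Nat.card T = n ^ 2 := card_torsionBy
    (by change (W.map (algebraMap ℚ ℚbar)).Δ ≠ 0
        rw [WeierstrassCurve.map_Δ]; exact (map_ne_zero _).mpr hΔ) hn.one_le
  have : Finite T := Nat.finite_of_card_ne_zero (by rw [hT]; exact pow_ne_zero _ hn.ne_zero)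
  have : Module.Finite (ZMod n) T := Module.Finite.of_finite
  have hrank : Module.finrank (ZMod n) T = 2 := by
    have := Module.natCard_eq_pow_finrank (K := ZMod n) (V := T)
    rw [hT, Nat.card_zmod] at this
    exact (Nat.pow_right_injective hn.two_le this).symm
  let B : Module.Basis (Fin 2) (ZMod n) T := Module.finBasisOfFinrankEq (ZMod n) T hrank
  set M := LinearMap.toMatrix B B (Point.galoisRep (S := ℚ) W n σ).toLinearMap with hM
  set m : Fin 2 → Fin 2 → ℤ := fun i j => ((M i j).val : ℤ) with hm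
  have hmM : ∀ i j, ((m i j : ℤ) : ZMod n) = M i j := fun i j => by
    rw [hm, Int.cast_natCast, ZMod.natCast_zmod_val]
  have hcol : ∀ j, σ • (B j : ((W.toAffine)⁄ℚbar).Point) =
      m 0 j • (B 0 : ((W.toAffine)⁄ℚbar).Point) + m 1 j • (B 1 : _) := by
    intro j
    have : Point.galoisRep (S := ℚ) W n σ (B j) = m 0 j • B 0 + m 1 j • B 1 := by
      rw [← Int.cast_smul_eq_zsmul (ZMod n), ← Int.cast_smul_eq_zsmul (ZMod n), hmM, hmM, hM,
        LinearMap.toMatrix_apply, LinearMap.toMatrix_apply]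
      exact (B.sum_repr _).symm.trans (Fin.sum_univ_two _)
    exact congrArg Subtype.val this
  have hdetU : M.det = ((Point.galoisRepDet (S := ℚ) (K := ℚbar) W n σ : (ZMod n)ˣ) : ZMod n) := by
    rw [hM, LinearMap.det_toMatrix, Point.galoisRepDet_apply]
    exact (LinearEquiv.coe_det _).symm
  have hdetm : ((m 0 0 * m 1 1 - m 0 1 * m 1 0 : ℤ) : ZMod n) = M.det := by
    rw [Matrix.det_fin_two, Int.cast_sub, Int.cast_mul, Int.cast_mul, hmM, hmM, hmM, hmM]
  have hdet : ¬ (n : ℤ) ∣ m 0 0 * m 1 1 - m 0 1 * m 1 0 := by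
    rw [← ZMod.intCast_zmod_eq_zero_iff_dvd, hdetm, hdetU]
    exact Units.ne_zero _
  -- on a short model, `σ` raises a primitive root `ζ` to the determinant
  obtain ⟨S, h1, h2, h3, hS, φ, hφ, hφσ⟩ := exists_short W hΔ
  have htors : ∀ j, n • φ (B j : ((W.toAffine)⁄ℚbar).Point) = 0 := fun j => by
    have := (Submodule.mem_torsionBy_iff _ _).mp (B j).2
    rw [← map_nsmul, ← natCast_zsmul, this, map_zero]
  obtain ⟨ζ, hζ, hσζ⟩ := exists_zeta_det S h1 h2 h3 hS hn hn2 σ _ _ (htors 0) (htors 1)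
    (fun x y e => by
      rw [← map_zsmul, ← map_zsmul, ← map_add, map_eq_zero_iff _ hφ] at e
      have e' : x • B 0 + y • B 1 = 0 := Subtype.ext e
      rw [← Int.cast_smul_eq_zsmul (ZMod n), ← Int.cast_smul_eq_zsmul (ZMod n)] at e'
      have := LinearIndependent.pair_iff.1
        (show LinearIndependent (ZMod n) ![B 0, B 1] by
          convert B.linearIndependent using 1; ext i; fin_cases i <;> rfl) _ _ e'
      exact ⟨(ZMod.intCast_zmod_eq_zero_iff_dvd _ _).mp this.1,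
        (ZMod.intCast_zmod_eq_zero_iff_dvd _ _).mp this.2⟩)
    (by rw [← hφσ, hcol 0, map_add, map_zsmul, map_zsmul])
    (by rw [← hφσ, hcol 1, map_add, map_zsmul, map_zsmul]) hdet
  -- but `σ ζ = ζ ^ χ σ`, so both exponents agree modulo `n`
  set χ := (modularCyclotomicCharacter ℚbar hcard (σ : ℚbar ≃+* ℚbar) : (ZMod n)ˣ) with hχ
  have hζ0 : ζ ≠ 0 := hζ.ne_zero hn.ne_zero
  have hspec : σ ζ = ζ ^ ((χ : ZMod n).val : ℤ) := by
    rw [zpow_natCast]
    exact modularCyclotomicCharacter.spec (L := ℚbar) hcard (σ : ℚbar ≃+* ℚbar)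
      (t := (hζ.isUnit hn.ne_zero).unit)
      (by rw [mem_rootsOfUnity, Units.ext_iff]; simpa using hζ.pow_eq_one)
  have hdiv : (n : ℤ) ∣ m 0 0 * m 1 1 - m 0 1 * m 1 0 - ((χ : ZMod n).val : ℤ) := by
    rw [← hζ.zpow_eq_one_iff_dvd, zpow_sub₀ hζ0, ← hσζ, ← hspec,
      div_self ((map_ne_zero σ).mpr hζ0)]
  refine Units.ext ?_
  rw [← hdetU, ← hdetm]
  have := (ZMod.intCast_zmod_eq_zero_iff_dvd _ _).mpr hdiv
  rwa [Int.cast_sub, Int.cast_natCast, ZMod.natCast_zmod_val, sub_eq_zero] at this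

/-- **`det ρ = χ`** for every prime `n`. -/
theorem galoisRepDet_eq_cyclotomic_prime [DecidableEq ℚbar] (W : WeierstrassCurve ℚ)
    (hΔ : W.Δ ≠ 0) {n : ℕ} [NeZero n] (hn : n.Prime)
    (hcard : Nat.card (rootsOfUnity n ℚbar) = n) :
    WeierstrassCurve.Affine.Point.GaloisRepDetEqCyclotomic (K := ℚbar) ℚ W n hcard := by
  rcases eq_or_ne n 2 with rfl | h2
  · exact Point.galoisRepDetEqCyclotomic_two hcard
  · exact galoisRepDet_eq_cyclotomic W hΔ hn h2 hcard

end Fermat.EC.Weil
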