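import Fermat.Agent.EC.Weil.Step

/-!
# The Weil pairing by Miller's formula and its value over `ℂ`

`miller_eq` and `pairing_eq`; `Det` moves them to `ℚ̄` through an embedding.
-/

set_option autoImplicit false

noncomputable section

open WeierstrassCurve WeierstrassCurve.Affine PeriodPair

namespace Fermat.EC.Weil

section algebra

variable {K : Type*} [Field K] [DecidableEq K] (V : Affine K)

/-- Abscissa (junk `0` at the origin). -/
def xc : V.Point → K
  | .zero => 0
  | .some x _ _ => x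

/-- Ordinate (junk `0` at the origin). -/
def yc : V.Point → K
  | .zero => 0
  | .some _ y _ => y

/-- Slope through `Q` and `-S`. -/
def hh (S Q : V.Point) : K := (yc V Q + yc V S) / (xc V Q - xc V S)

/-- Slope of the tangent at `P` (short model). -/
def tang (P : V.Point) : K := (3 * xc V P ^ 2 + V.a₄) / (2 * yc V P)

/-- Miller's function `f_{n,P}` at `Q`. -/
def miller (n : ℕ) (P Q : V.Point) : K :=
  (xc V Q - xc V P) * ∏ j ∈ Finset.Ico 2 n,
    (hh V (j • P) Q - if j + 1 = n then tang V P else hh V (j • P) P)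

/-- The Weil pairing on independent `n`-torsion points, `n` odd. -/
def pairing (n : ℕ) (P Q : V.Point) : K := -miller V n P Q / miller V n Q P

end algebra

/-- The coordinates of the point of an argument outside the lattice. -/
private theorem xc_yc_ptHom (L : PeriodPair) (hΔ : L.g₂ ^ 3 - 27 * L.g₃ ^ 2 ≠ 0) {x : ℂ}
    (hx : x ∉ L.lattice) :
    xc (HT.Ell.curve L) (HT.Ell.ptHom L hΔ x) = ℘[L] x ∧
      yc (HT.Ell.curve L) (HT.Ell.ptHom L hΔ x) = ℘'[L] x / 2 := by
  change xc _ (HT.Ell.pt L hΔ x) = _ ∧ yc _ (HT.Ell.pt L hΔ x) = _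
  rw [HT.Ell.pt_of_notMem L hΔ hx]
  exact ⟨rfl, rfl⟩

open Classical in
/-- The slope through the points of `x` and `-w` is `slopeFun L w x`, for `w = j u`. -/
private theorem hh_ptHom (L : PeriodPair) (hΔ : L.g₂ ^ 3 - 27 * L.g₃ ^ 2 ≠ 0) {u x : ℂ} {j : ℕ}
    (hju : (j : ℂ) * u ∉ L.lattice) (hx : x ∉ L.lattice) :
    hh (HT.Ell.curve L) (j • HT.Ell.ptHom L hΔ u) (HT.Ell.ptHom L hΔ x) =
      slopeFun L ((j : ℂ) * u) x := by
  rw [← map_nsmul, nsmul_eq_mul, hh, (xc_yc_ptHom L hΔ hx).1, (xc_yc_ptHom L hΔ hx).2,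
    (xc_yc_ptHom L hΔ hju).1, (xc_yc_ptHom L hΔ hju).2, slopeFun]
  ring

/-- The ratio `θ (z - j u) / θ (- j u)`, through which the factors of Miller's product telescope. -/
private def thRatio (L : PeriodPair) (u z : ℂ) (j : ℕ) : ℂ :=
  th L (z - j * u) / th L (-((j : ℂ) * u))

open Classical in
/-- One factor of Miller's product. -/
private theorem miller_factor (L : PeriodPair) (hΔ : L.g₂ ^ 3 - 27 * L.g₃ ^ 2 ≠ 0)
    (hor : 0 < (ltau L).im) {n m : ℕ} (hn : n.Prime) (hm : 2 ≤ m) (hmn : m + 1 ≤ n)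
    {u z : ℂ} {a b : ℤ} (hu : (n : ℂ) * u = a * L.ω₁ + b * L.ω₂)
    (hju : ∀ j : ℕ, 1 ≤ j → j < n → (j : ℂ) * u ∉ L.lattice)
    (hu0 : ∀ i : ℕ, ¬ n ∣ i → (i : ℂ) * u ∉ L.lattice)
    (hz : z ∉ L.lattice) (hzm : ∀ j : ℕ, z - j * u ∉ L.lattice)
    (hzp : ∀ j : ℕ, z + j * u ∉ L.lattice) :
    hh (HT.Ell.curve L) (m • HT.Ell.ptHom L hΔ u) (HT.Ell.ptHom L hΔ z) -
        (if m + 1 = n then tang (HT.Ell.curve L) (HT.Ell.ptHom L hΔ u)
        else hh (HT.Ell.curve L) (m • HT.Ell.ptHom L hΔ u) (HT.Ell.ptHom L hΔ u)) =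
      -(th L (z - u) * deriv (th L) 0 / (th L z * th L (-u))) *
        thRatio L u z (m - 1) / thRatio L u z m := by
  set κ := th L (z - u) * deriv (th L) 0 / (th L z * th L (-u)) with hκ
  have hu1 : u ∉ L.lattice := by simpa using hju 1 le_rfl (by omega)
  have hneg : ∀ {x : ℂ}, x ∉ L.lattice → -x ∉ L.lattice := fun hx h =>
    hx (by simpa using neg_mem h)
  set w := (m : ℂ) * u with hw
  set a' := ((m - 1 : ℕ) : ℂ) * u with ha'
  have hab : a' + u = w := by
    rw [ha', hw, Nat.cast_sub (by omega : 1 ≤ m), Nat.cast_one]; ring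
  have hw2 : w + w ∉ L.lattice := by
    have := hu0 (2 * m) (fun e => by
      rcases (Nat.Prime.dvd_mul hn).mp e with e | e
      · have := Nat.le_of_dvd two_pos e; omega
      · have := Nat.le_of_dvd (by omega) e; omega)
    push_cast at this
    rw [hw]
    convert this using 2
    ring
  set c := if m + 1 = n then tang (HT.Ell.curve L) (HT.Ell.ptHom L hΔ u)
    else hh (HT.Ell.curve L) (m • HT.Ell.ptHom L hΔ u) (HT.Ell.ptHom L hΔ u) with hcdef
  have hbw : u + w = ((m + 1 : ℕ) : ℂ) * u := by rw [hw]; push_cast; ring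
  have hc : (u + w ∉ L.lattice ∧ c = slopeFun L w u) ∨
      (u + w ∈ L.lattice ∧ c = tangentFun L u) := by
    by_cases hlast : m + 1 = n
    · right
      refine ⟨?_, ?_⟩
      · rw [hbw, hlast, hu]
        exact PeriodPair.mem_lattice.mpr ⟨a, b, rfl⟩
      · rw [hcdef, if_pos hlast, tang, (xc_yc_ptHom L hΔ hu1).1, (xc_yc_ptHom L hΔ hu1).2,
          tangentFun]
        simp only [HT.Ell.curve]
        ring
    · left
      refine ⟨hbw ▸ hju _ (by omega) (by omega), ?_⟩
      rw [hcdef, if_neg hlast, hh_ptHom L hΔ (hju m (by omega) (by omega)) hu1]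
  -- one step of Miller's algorithm with `a = (m - 1) u` and `b = u`
  have hst := step L hΔ hor hab (hju (m - 1) (by omega) (by omega)) hu1
    (hju m (by omega) (by omega)) hw2 c hc hz (hzm m) (hzp m)
  rw [hh_ptHom L hΔ (hju m (by omega) (by omega)) hz, ← hw]
  have n1 := th_ne L hor hz
  have n3 := th_ne L hor (hneg hu1)
  have n4 : th L (-a') ≠ 0 := th_ne L hor (hneg (hju (m - 1) (by omega) (by omega)))
  have n5 : th L (-w) ≠ 0 := th_ne L hor (hneg (hju m (by omega) (by omega)))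
  have n6 := deriv_th_ne L hor
  have hψm : thRatio L u z m = th L (z - w) / th L (-w) := rfl
  have hψm' : thRatio L u z (m - 1) = th L (z - a') / th L (-a') := rfl
  rw [hψm, hψm', hκ]
  field_simp at hst ⊢
  linear_combination hst

open Classical in
/-- **Miller's function over `ℂ`.** It is a theta quotient to the `n`-th power times an
exponential. -/
theorem miller_eq (L : PeriodPair) (hΔ : L.g₂ ^ 3 - 27 * L.g₃ ^ 2 ≠ 0) (hor : 0 < (ltau L).im)
    {n : ℕ} (hn : n.Prime) (hn2 : n ≠ 2) {u z : ℂ} {a b : ℤ}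
    (hu : (n : ℂ) * u = a * L.ω₁ + b * L.ω₂) (hu0 : ∀ i : ℕ, ¬ n ∣ i → (i : ℂ) * u ∉ L.lattice)
    (hzu : ∀ i : ℤ, z + i * u ∉ L.lattice) :
    miller (HT.Ell.curve L) n (HT.Ell.ptHom L hΔ u) (HT.Ell.ptHom L hΔ z) =
      -(th L (z - u) * deriv (th L) 0 / (th L z * th L (-u))) ^ n *
        e2pi (-((b : ℂ) * (z / L.ω₁))) := by
  have hn3 : 3 ≤ n := by have := hn.two_le; omega
  set κ := th L (z - u) * deriv (th L) 0 / (th L z * th L (-u)) with hκ
  set ψ : ℕ → ℂ := thRatio L u z with hψ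
  have hu1 : u ∉ L.lattice := by
    simpa using hu0 1 (fun e => by have := Nat.le_of_dvd one_pos e; omega)
  have hz : z ∉ L.lattice := by simpa using hzu 0
  have hzm : ∀ j : ℕ, z - j * u ∉ L.lattice := fun j => by
    have := hzu (-(j : ℤ))
    push_cast at this
    rwa [neg_mul, ← sub_eq_add_neg] at this
  have hzp : ∀ j : ℕ, z + j * u ∉ L.lattice := fun j => by
    have := hzu (j : ℤ)
    exact_mod_cast this
  have hju : ∀ j : ℕ, 1 ≤ j → j < n → (j : ℂ) * u ∉ L.lattice := fun j h1 h2 =>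
    hu0 j fun e => absurd (Nat.le_of_dvd (by omega) e) (not_le.mpr h2)
  have hneg : ∀ {x : ℂ}, x ∉ L.lattice → -x ∉ L.lattice := fun hx h => hx (by simpa using neg_mem h)
  have hψ0 : ∀ j, 1 ≤ j → j < n → ψ j ≠ 0 := fun j h1 h2 =>
    div_ne_zero (th_ne L hor (hzm j)) (th_ne L hor (hneg (hju j h1 h2)))
  -- the product telescopes
  have key : ∀ m, 2 ≤ m → m ≤ n →
      ∏ j ∈ Finset.Ico 2 m, (hh (HT.Ell.curve L) (j • HT.Ell.ptHom L hΔ u) (HT.Ell.ptHom L hΔ z) -
        if j + 1 = n then tang (HT.Ell.curve L) (HT.Ell.ptHom L hΔ u)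
        else hh (HT.Ell.curve L) (j • HT.Ell.ptHom L hΔ u) (HT.Ell.ptHom L hΔ u)) =
      (-κ) ^ (m - 2) * ψ 1 / ψ (m - 1) := by
    intro m hm
    induction m, hm using Nat.le_induction with
    | base =>
      intro _
      simp [div_self (hψ0 1 le_rfl (by omega))]
    | succ m hm ih =>
      intro hmn
      rw [Finset.prod_Ico_succ_top hm, ih (by omega)]
      rw [miller_factor L hΔ hor hn hm hmn hu hju hu0 hz hzm hzp, ← hκ, ← hψ,
        show m + 1 - 1 = m from rfl, show m + 1 - 2 = (m - 2) + 1 by omega, pow_succ]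
      have := hψ0 (m - 1) (by omega) (by omega)
      have := hψ0 m (by omega) (by omega)
      field_simp
  rw [miller, (xc_yc_ptHom L hΔ hz).1, (xc_yc_ptHom L hΔ hu1).1, key n (by omega) le_rfl]
  have hv := vertical L hor hu1 hz
  -- `n u` is a period, which evaluates `ψ (n - 1)`
  have hshift : ∀ x, th L (x - (n : ℂ) * u) =
      shiftFactor (ltau L) (-b) * e2pi ((b : ℂ) * (x / L.ω₁)) * th L x := fun x => by
    rw [hu, show x - (a * L.ω₁ + b * L.ω₂) =
      x + (((-a : ℤ) : ℂ) * L.ω₁ + ((-b : ℤ) : ℂ) * L.ω₂) by push_cast; ring, th_add L hor]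
    push_cast; ring_nf
  have e1 : ψ (n - 1) = th L (z + u) * e2pi ((b : ℂ) * (z / L.ω₁)) / th L u := by
    simp only [hψ, thRatio]
    simp only [Nat.cast_sub hn.one_le, Nat.cast_one]
    rw [show z - ((n : ℂ) - 1) * u = z + u - (n : ℂ) * u by ring,
      show -(((n : ℂ) - 1) * u) = u - (n : ℂ) * u by ring, hshift, hshift,
      show (b : ℂ) * ((z + u) / L.ω₁) = (b : ℂ) * (z / L.ω₁) + (b : ℂ) * (u / L.ω₁) by ring,
      e2pi_add]
    have := shiftFactor_ne_zero (τ := ltau L) (-b)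
    have hB := e2pi_ne_zero ((b : ℂ) * (u / L.ω₁))
    have := th_ne L hor hu1
    generalize e2pi ((b : ℂ) * (u / L.ω₁)) = B at hB ⊢
    generalize e2pi ((b : ℂ) * (z / L.ω₁)) = C
    field_simp
  have e2 : ψ 1 = κ * th L z / deriv (th L) 0 := by
    simp only [hψ, thRatio, hκ]
    simp only [Nat.cast_one, one_mul]
    have := th_ne L hor hz
    have := deriv_th_ne L hor
    field_simp
  have hodd : (-κ) ^ (n - 2) = -κ ^ (n - 2) :=
    (Nat.Odd.sub_even (by omega) (hn.odd_of_ne_two hn2) even_two).neg_pow κ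
  have hzpu : z + u ∉ L.lattice := by simpa using hzp 1
  have hκn : κ ^ n = κ ^ (n - 2) * (κ * κ) := by
    rw [← pow_two, ← pow_add, Nat.sub_add_cancel (by omega)]
  -- the vertical line `x - x(P)` as a theta quotient
  have hvd : ℘[L] z - ℘[L] u =
      κ * th L (z + u) * deriv (th L) 0 / (th L z * th L u) := by
    have := th_ne L hor hz
    have := th_ne L hor hu1
    have := th_ne L hor (hneg hu1)
    have := deriv_th_ne L hor
    rw [hκ]
    field_simp at hv ⊢
    linear_combination -hv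
  rw [hvd, hodd, e1, e2, hκn, e2pi_neg]
  have := th_ne L hor hz
  have := th_ne L hor hu1
  have := th_ne L hor hzpu
  have := deriv_th_ne L hor
  have := e2pi_ne_zero ((b : ℂ) * (z / L.ω₁))
  field_simp

open Classical in
/-- **The pairing over `ℂ`** is `exp (2 π i (a d - b c) / n)`. -/
theorem pairing_eq (L : PeriodPair) (hΔ : L.g₂ ^ 3 - 27 * L.g₃ ^ 2 ≠ 0) (hor : 0 < (ltau L).im)
    {n : ℕ} (hn : n.Prime) (hn2 : n ≠ 2) {u v : ℂ} {a b c d : ℤ}
    (hu : (n : ℂ) * u = a * L.ω₁ + b * L.ω₂) (hv : (n : ℂ) * v = c * L.ω₁ + d * L.ω₂)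
    (hu0 : ∀ i : ℕ, ¬ n ∣ i → (i : ℂ) * u ∉ L.lattice)
    (hv0 : ∀ i : ℕ, ¬ n ∣ i → (i : ℂ) * v ∉ L.lattice)
    (hvu : ∀ i : ℤ, v + i * u ∉ L.lattice) (huv : ∀ i : ℤ, u + i * v ∉ L.lattice) :
    pairing (HT.Ell.curve L) n (HT.Ell.ptHom L hΔ u) (HT.Ell.ptHom L hΔ v) =
      e2pi ((a * d - b * c : ℤ) / (n : ℂ)) := by
  rw [pairing, miller_eq L hΔ hor hn hn2 hu hu0 hvu, miller_eq L hΔ hor hn hn2 hv hv0 huv]
  have hu1 : u ∉ L.lattice := by simpa using huv 0
  have hv1 : v ∉ L.lattice := by simpa using hvu 0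
  have hv1' : -v ∉ L.lattice := fun h => hv1 (by simpa using neg_mem h)
  have hd : v - u ∉ L.lattice := by
    have := hvu (-1); push_cast at this; rwa [neg_one_mul, ← sub_eq_add_neg] at this
  have hd' : u - v ∉ L.lattice := fun h => hd (by simpa using neg_mem h)
  have n1 := th_ne L hor hu1
  have n2 := th_ne L hor hv1
  have n4 := th_ne L hor hv1'
  have n5 := th_ne L hor hd'
  have n6 := deriv_th_ne L hor
  have hω := ω₁_ne_zero L
  have hne : ∀ x, e2pi x ≠ 0 := e2pi_ne_zero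
  -- the two theta quotients differ by a sign
  have hratio : th L (v - u) * deriv (th L) 0 / (th L v * th L (-u)) =
      -(th L (u - v) * deriv (th L) 0 / (th L u * th L (-v))) := by
    have e1 := th_neg L (u - v)
    have e2 := th_neg L u
    have e3 := th_neg L v
    rw [show -(u - v) = v - u by ring] at e1
    rw [e1, e2, e3, show -((u - v) / L.ω₁) = -(u / L.ω₁) + -(-(v / L.ω₁)) by ring,
      e2pi_add, e2pi_neg (-(v / L.ω₁))]
    have := hne (-(u / L.ω₁))
    have := hne (-(v / L.ω₁))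
    field_simp
  rw [hratio, (hn.odd_of_ne_two hn2).neg_pow]
  have hK : th L (u - v) * deriv (th L) 0 / (th L u * th L (-v)) ≠ 0 :=
    div_ne_zero (mul_ne_zero n5 n6) (mul_ne_zero n1 n4)
  -- only the exponential factors remain
  have hexp : e2pi (-((b : ℂ) * (v / L.ω₁))) / e2pi (-((d : ℂ) * (u / L.ω₁))) =
      e2pi ((a * d - b * c : ℤ) / (n : ℂ)) := by
    rw [← e2pi_sub]
    congr 1
    have hn0 : (n : ℂ) ≠ 0 := Nat.cast_ne_zero.mpr hn.ne_zero
    field_simp
    push_cast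
    linear_combination (d : ℂ) * hu - (b : ℂ) * hv
  rw [← hexp]
  generalize th L (u - v) * deriv (th L) 0 / (th L u * th L (-v)) = K at hK ⊢
  have := hne (-((d : ℂ) * (u / L.ω₁)))
  field_simp

end Fermat.EC.Weil
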