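import Fermat.Agent.EC.Weil.Theta
import Fermat.Agent.HT.Ell.Basic
import Mathlib.Analysis.Analytic.IsolatedZeros

/-!
# No elliptic function has a single simple pole

`const_of_simple_pole`, with which `Step` identifies the line functions.
-/

set_option autoImplicit false

noncomputable section

open Complex Filter Topology Set
open scoped Real

namespace Fermat.EC.Weil

/-- The difference quotient of a function analytic at `x` is analytic at `x`. -/
lemma analyticAt_dslope {f : ℂ → ℂ} {x : ℂ} (hf : AnalyticAt ℂ f x) :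
    AnalyticAt ℂ (dslope f x) x := by
  obtain ⟨p, hp⟩ := hf
  exact ⟨_, HasFPowerSeriesAt.has_fpower_series_dslope_fslope hp⟩

/-- Away from the base point, `dslope` is the difference quotient. -/
lemma dslope_eq_div {f : ℂ → ℂ} {x z : ℂ} (hz : z ≠ x) :
    dslope f x z = (f z - f x) / (z - x) := by
  rw [dslope_of_ne f hz, slope_def_field]

/-- A function with only removable singularities agrees, off the singularities, with an entire
one. -/
theorem exists_entire {f : ℂ → ℂ}
    (h : ∀ x, ∃ g : ℂ → ℂ, AnalyticAt ℂ g x ∧ f =ᶠ[𝓝[≠] x] g) :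
    ∃ F : ℂ → ℂ, Differentiable ℂ F ∧ ∀ x, f =ᶠ[𝓝[≠] x] F := by
  choose g hg hfg using h
  have huniq : ∀ x (u : ℂ → ℂ), ContinuousAt u x → f =ᶠ[𝓝[≠] x] u → g x x = u x := fun x u hu he =>
    tendsto_nhds_unique (((hg x).continuousAt.tendsto.mono_left nhdsWithin_le_nhds).congr'
      ((hfg x).symm.trans he)) (hu.tendsto.mono_left nhdsWithin_le_nhds)
  have hF : ∀ x, (fun y => g y y) =ᶠ[𝓝 x] g x := fun x => by
    have h1 := (hg x).eventually_analyticAt.mono fun y hy => hy.continuousAt
    have h2 := eventually_eventually_nhdsWithin.2 (hfg x)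
    rw [eventually_nhdsWithin_iff] at h2
    filter_upwards [h1, h2] with y hy1 hy2
    rcases eq_or_ne y x with rfl | hne
    · rfl
    · refine huniq y _ hy1 ?_
      have h3 : ∀ᶠ z in 𝓝 y, z ∈ ({x}ᶜ : Set ℂ) := isOpen_compl_singleton.mem_nhds hne
      have h4 := hy2 hne
      rw [eventually_nhdsWithin_iff] at h4
      exact (h3.and h4).filter_mono nhdsWithin_le_nhds |>.mono fun z hz => hz.2 hz.1
  exact ⟨fun y => g y y, fun x => ((hg x).congr (hF x).symm).differentiableAt,
    fun x => (hfg x).trans ((hF x).filter_mono nhdsWithin_le_nhds).symm⟩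

variable (L : PeriodPair)

/-- `τ = ω₂ / ω₁`. -/
def ltau : ℂ := L.ω₂ / L.ω₁

/-- `θ` of the lattice. -/
def th (z : ℂ) : ℂ := theta (ltau L) (z / L.ω₁)

/-- The first period is nonzero. -/
lemma ω₁_ne_zero : L.ω₁ ≠ 0 := fun e => by
  have := L.basis.ne_zero 0
  rw [L.basis_zero] at this
  exact this e

/-- `z` is a period iff `z / ω₁` lies in `ℤ + τ ℤ`. -/
lemma mem_lattice_iff (z : ℂ) :
    z ∈ L.lattice ↔ ∃ a b : ℤ, z / L.ω₁ = a + b * ltau L := by
  have h := ω₁_ne_zero L
  rw [PeriodPair.mem_lattice]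
  constructor
  · rintro ⟨a, b, rfl⟩
    exact ⟨a, b, by simp only [ltau]; field_simp⟩
  · rintro ⟨a, b, e⟩
    refine ⟨a, b, ?_⟩
    rw [ltau] at e
    field_simp at e
    linear_combination -e

variable (hor : 0 < (ltau L).im)
include hor

/-- `th` is entire. -/
lemma differentiable_th : Differentiable ℂ (th L) :=
  (differentiable_theta hor).comp (differentiable_id.div_const _)

/-- `th` is analytic everywhere. -/
lemma th_analyticAt (x : ℂ) : AnalyticAt ℂ (th L) x :=
  (differentiable_th L hor).analyticAt x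

/-- The zeros of `th` are the periods. -/
lemma th_eq_zero_iff (z : ℂ) : th L z = 0 ↔ z ∈ L.lattice := by
  rw [mem_lattice_iff]; exact theta_eq_zero_iff hor _

omit hor in
/-- `th` vanishes at `0`. -/
lemma th_zero : th L 0 = 0 := by simp [th, theta_zero]

/-- The automorphy factor of `th` under the period `a ω₁ + b ω₂`. -/
lemma th_add (z : ℂ) (a b : ℤ) :
    th L (z + (a * L.ω₁ + b * L.ω₂)) =
      shiftFactor (ltau L) b * e2pi (-((b : ℂ) * (z / L.ω₁))) * th L z := by
  have h := ω₁_ne_zero L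
  rw [th, th, show (z + (a * L.ω₁ + b * L.ω₂)) / L.ω₁ = z / L.ω₁ + a + b * ltau L by
    rw [ltau]; field_simp; ring]
  exact theta_shift hor a b _

omit hor in
/-- `th` has period `ω₁`. -/
lemma th_add_ω₁ (z : ℂ) : th L (z + L.ω₁) = th L z := by
  rw [th, th, add_div, div_self (ω₁_ne_zero L)]; exact theta_add_one _

/-- The automorphy factor of `th` under `ω₂`. -/
lemma th_add_ω₂ (z : ℂ) : th L (z + L.ω₂) = -e2pi (-(z / L.ω₁)) * th L z := by
  rw [th, th, add_div]; exact theta_add_tau hor _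

omit hor in
/-- `th (-z)` is a nowhere vanishing multiple of `th z`. -/
lemma th_neg (z : ℂ) : th L (-z) = -e2pi (-(z / L.ω₁)) * th L z := by
  rw [th, th, neg_div]; exact theta_neg _

/-- The zero of `th` at `0` is simple. -/
lemma deriv_th_ne : deriv (th L) 0 ≠ 0 := by
  have h : HasDerivAt (th L) (deriv (theta (ltau L)) 0 * (1 / L.ω₁)) 0 := by
    have h1 := ((differentiable_theta hor) ((0 : ℂ) / L.ω₁)).hasDerivAt.comp 0
      ((hasDerivAt_id (0 : ℂ)).div_const L.ω₁)
    rw [zero_div] at h1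
    exact h1
  rw [h.deriv]
  exact mul_ne_zero (deriv_theta_zero_ne hor) (one_div_ne_zero (ω₁_ne_zero L))

/-- `θ z / z`, continued at `0`. -/
lemma dslope_th_ne : dslope (th L) 0 0 ≠ 0 := by
  rw [dslope_same]; exact deriv_th_ne L hor

/-- `θ'/θ`. -/
def zeta (z : ℂ) : ℂ := deriv (th L) z / th L z

omit hor in
/-- `zeta` has period `ω₁`. -/
lemma zeta_add_ω₁ (z : ℂ) : zeta L (z + L.ω₁) = zeta L z := by
  have h : deriv (th L) (z + L.ω₁) = deriv (th L) z := by
    rw [← deriv_comp_add_const (f := th L) L.ω₁ z]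
    exact congrArg (fun f => deriv f z) (funext fun w => th_add_ω₁ L w)
  rw [zeta, zeta, h, th_add_ω₁]

/-- The quasi-period of `zeta` at `ω₂`. -/
lemma zeta_add_ω₂ {z : ℂ} (hz : z ∉ L.lattice) :
    zeta L (z + L.ω₂) = zeta L z - 2 * π * I / L.ω₁ := by
  have hne : th L z ≠ 0 := fun e => hz ((th_eq_zero_iff L hor z).mp e)
  have h : deriv (th L) (z + L.ω₂) = -e2pi (-(z / L.ω₁)) * deriv (th L) z +
      2 * π * I / L.ω₁ * e2pi (-(z / L.ω₁)) * th L z := by
    rw [← deriv_comp_add_const (f := th L) L.ω₂ z]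
    have e : (fun w => th L (w + L.ω₂)) = fun w => -e2pi (-(w / L.ω₁)) * th L w :=
      funext fun w => th_add_ω₂ L hor w
    rw [e]
    have h1 : HasDerivAt (fun w => -e2pi (-(w / L.ω₁)))
        (-(2 * π * I * e2pi (-(z / L.ω₁)) * -(1 / L.ω₁))) z :=
      ((hasDerivAt_e2pi _).comp z ((hasDerivAt_id z).div_const L.ω₁).neg).neg
    rw [(h1.fun_mul (differentiable_th L hor z).hasDerivAt).deriv]
    ring
  rw [zeta, zeta, h, th_add_ω₂ L hor]
  have he := e2pi_ne_zero (-(z / L.ω₁))
  have := ω₁_ne_zero L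
  field_simp
  ring

/-- The change of `zeta` under a period. -/
lemma zeta_shift (a b : ℤ) (z : ℂ) (hz : z ∉ L.lattice) :
    zeta L (z + (a * L.ω₁ + b * L.ω₂)) = zeta L z + -((b : ℂ) * (2 * π * I / L.ω₁)) := by
  have hb : ∀ n : ℤ, ∀ u, u ∉ L.lattice →
      zeta L (u + n * L.ω₂) = zeta L u + -((n : ℂ) * (2 * π * I / L.ω₁)) := by
    have hmem : ∀ (n : ℤ) (u : ℂ), u ∉ L.lattice → u + n * L.ω₂ ∉ L.lattice := fun n u hu h =>
      hu (by simpa using sub_mem h (show (n : ℂ) * L.ω₂ ∈ L.lattice by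
        rw [← zsmul_eq_mul]; exact L.lattice.smul_mem n L.ω₂_mem_lattice))
    intro n
    induction n using Int.induction_on with
    | zero => intro u _; simp
    | succ k ih =>
      intro u hu
      rw [show u + ((k : ℤ) + 1 : ℤ) * L.ω₂ = u + (k : ℤ) * L.ω₂ + L.ω₂ by push_cast; ring,
        zeta_add_ω₂ L hor (hmem k u hu), ih u hu]
      push_cast; ring
    | pred k ih =>
      intro u hu
      have h := zeta_add_ω₂ L hor (hmem (-(k : ℤ) - 1) u hu)
      rw [show u + ((-(k : ℤ) - 1 : ℤ) : ℂ) * L.ω₂ + L.ω₂ = u + ((-(k : ℤ) : ℤ) : ℂ) * L.ω₂ by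
        push_cast; ring, ih u hu] at h
      push_cast at h ⊢
      linear_combination -h
  have ha : ∀ u, zeta L (u + a * L.ω₁) = zeta L u := fun u =>
    (Function.Periodic.int_mul (f := zeta L) (fun u => zeta_add_ω₁ L u) a) u
  rw [show z + (a * L.ω₁ + b * L.ω₂) = z + b * L.ω₂ + a * L.ω₁ by ring, ha, hb b z hz]

omit hor in
/-- Translation by `-w` on punctured neighbourhoods. -/
lemma tendsto_sub_punctured (w z : ℂ) :
    Tendsto (fun u => u - w) (𝓝[≠] z) (𝓝[≠] (z - w)) := by
  refine tendsto_nhdsWithin_of_tendsto_nhds_of_eventually_within _ ?_ ?_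
  · exact ((continuous_id.sub continuous_const).tendsto z).mono_left nhdsWithin_le_nhds
  · exact eventually_nhdsWithin_of_forall fun u hu h0 => hu (sub_left_injective h0)

omit hor in
/-- Near any point, `u - w` avoids the lattice away from that point. -/
lemma eventually_sub_notMem_lattice (w z : ℂ) :
    ∀ᶠ u in 𝓝[≠] z, u - w ∉ L.lattice := by
  have h0 : ∀ᶠ u in 𝓝[≠] (z - w), u ∉ L.lattice := by
    filter_upwards [self_mem_nhdsWithin,
      mem_nhdsWithin_of_mem_nhds (L.compl_lattice_sdiff_singleton_mem_nhds (z - w))]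
      with u hu hu' using fun h => hu' ⟨h, hu⟩
  exact (tendsto_sub_punctured w z).eventually h0

/-- Subtracting `g w * (ζ + k)` removes a simple pole at `w`. -/
private lemma exists_regular_at_pole {f g : ℂ → ℂ} {w : ℂ} (hg : AnalyticAt ℂ g w)
    (hfg : f =ᶠ[𝓝[≠] w] fun z => g z / (z - w)) (k : ℂ) :
    ∃ G : ℂ → ℂ, AnalyticAt ℂ G w ∧
      ∀ᶠ z in 𝓝[≠] w, f z - g w * (zeta L (z - w) + k) = G z := by
  have hshift : AnalyticAt ℂ (fun z : ℂ => z - w) w := by fun_prop
  have hφ : AnalyticAt ℂ (fun z => dslope (th L) 0 (z - w)) w :=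
    (analyticAt_dslope (th_analyticAt L hor 0)).comp_of_eq hshift (sub_self w)
  have hφ0 : (fun z => dslope (th L) 0 (z - w)) w ≠ 0 := by
    simpa using dslope_th_ne L hor
  refine ⟨fun z => dslope g w z
    - g w * (deriv (dslope (th L) 0) (z - w) / dslope (th L) 0 (z - w)) - g w * k,
    ((analyticAt_dslope hg).sub (analyticAt_const.mul
      (((analyticAt_dslope (th_analyticAt L hor 0)).deriv.comp_of_eq hshift (sub_self w)).div
        hφ hφ0))).sub analyticAt_const, ?_⟩
  filter_upwards [hfg, self_mem_nhdsWithin, eventually_sub_notMem_lattice L w w]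
    with z hz hzw hzl
  have hne : z - w ≠ 0 := sub_ne_zero.mpr hzw
  have hθ : th L (z - w) ≠ 0 := fun e => hzl ((th_eq_zero_iff L hor _).mp e)
  have hev : dslope (th L) 0 =ᶠ[𝓝 (z - w)] fun u => th L u / u := by
    filter_upwards [isOpen_ne.mem_nhds hne] with u hu
    rw [dslope_eq_div hu, th_zero, sub_zero, sub_zero]
  have hd : deriv (dslope (th L) 0) (z - w) =
      (deriv (th L) (z - w) * (z - w) - th L (z - w)) / (z - w) ^ 2 := by
    rw [hev.deriv_eq]
    exact ((differentiable_th L hor _).hasDerivAt.div (hasDerivAt_id _) hne).deriv.trans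
      (by simp)
  rw [hz, hd, hev.self_of_nhds, dslope_eq_div hzw, zeta]
  field_simp
  ring

/-- Subtracting `g w * ζ (· - w)` leaves only removable singularities. -/
private lemma exists_regular_sub_zeta {f g : ℂ → ℂ}
    (hper : ∀ z, ∀ l ∈ L.lattice, f (z + l) = f z) {w : ℂ}
    (hreg : ∀ x, x - w ∉ L.lattice → ∃ G : ℂ → ℂ, AnalyticAt ℂ G x ∧ f =ᶠ[𝓝[≠] x] G)
    (hg : AnalyticAt ℂ g w) (hfg : f =ᶠ[𝓝[≠] w] fun z => g z / (z - w)) (x : ℂ) :
    ∃ G : ℂ → ℂ, AnalyticAt ℂ G x ∧ (fun z => f z - g w * zeta L (z - w)) =ᶠ[𝓝[≠] x] G := by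
  by_cases hx : x - w ∈ L.lattice
  · obtain ⟨a, b, hab⟩ := PeriodPair.mem_lattice.mp hx
    obtain ⟨G, hGan, hmain⟩ :=
      exists_regular_at_pole L hor hg hfg (-((b : ℂ) * (2 * π * I / L.ω₁)))
    have hxe : x - (x - w) = w := by ring
    refine ⟨fun z => G (z - (x - w)), hGan.comp_of_eq (by fun_prop) hxe, ?_⟩
    have ht : Tendsto (fun z => z - (x - w)) (𝓝[≠] x) (𝓝[≠] w) := by
      simpa only [hxe] using tendsto_sub_punctured (x - w) x
    filter_upwards [ht.eventually hmain, ht.eventually (eventually_sub_notMem_lattice L w w)]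
      with z hz hzl
    rw [← hz]
    have e : z - w = z - (x - w) - w + (a * L.ω₁ + b * L.ω₂) := by rw [hab]; ring
    have hf : f z = f (z - (x - w)) := by
      conv_lhs => rw [show z = z - (x - w) + (x - w) by ring]
      exact hper _ _ hx
    rw [hf, e]
    congr 2
    exact zeta_shift L hor a b _ hzl
  · obtain ⟨G, hG, hfG⟩ := hreg x hx
    have hne : th L (x - w) ≠ 0 := fun e => hx ((th_eq_zero_iff L hor _).mp e)
    refine ⟨fun z => G z - g w * zeta L (z - w), hG.sub (analyticAt_const.mul ?_), ?_⟩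
    · exact (((th_analyticAt L hor _).deriv).comp_of_eq (by fun_prop) rfl).div
        ((th_analyticAt L hor _).comp_of_eq (by fun_prop) rfl) hne
    · exact hfG.mono fun z hz => by simp only [hz]

omit hor in
/-- An entire function agreeing with `f - r ζ (· - w)` shifts like `-r ζ`. -/
private lemma shift_of_sub_zeta {f M : ℂ → ℂ} {r w : ℂ}
    (hper : ∀ z, ∀ l ∈ L.lattice, f (z + l) = f z) (hM : Differentiable ℂ M)
    (hfM : ∀ x, (fun z => f z - r * zeta L (z - w)) =ᶠ[𝓝[≠] x] M) {l : ℂ} (hl : l ∈ L.lattice)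
    {c : ℂ} (hc : ∀ z, z - w ∉ L.lattice → zeta L (z - w + l) = zeta L (z - w) + c) (z : ℂ) :
    M (z + l) = M z - r * c := by
  have ht : Tendsto (fun u => u + l) (𝓝[≠] z) (𝓝[≠] (z + l)) := by
    simpa using tendsto_sub_punctured (-l) z
  have h2 : (fun u => M (u + l)) =ᶠ[𝓝[≠] z] fun u => M u - r * c := by
    filter_upwards [ht.eventually (hfM (z + l)), hfM z, eventually_sub_notMem_lattice L w z]
      with u hu hu' hu''
    rw [← hu, ← hu', hper u l hl, show u + l - w = u - w + l by ring, hc u hu'']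
    ring
  exact tendsto_nhds_unique
    ((((hM.comp (differentiable_id.add_const l)).continuous.tendsto z)).mono_left
      nhdsWithin_le_nhds)
    ((((hM.sub_const _).continuous.tendsto z).mono_left nhdsWithin_le_nhds).congr' h2.symm)

omit hor in
/-- An entire function invariant under `ω₁` and translated by `ω₂` is constant. -/
private lemma eq_const_of_translated {M : ℂ → ℂ} (hM : Differentiable ℂ M) {C : ℂ}
    (hM1 : ∀ z, M (z + L.ω₁) = M z) (hM2 : ∀ z, M (z + L.ω₂) = M z + C) :
    (∀ z, M z = M 0) ∧ C = 0 := by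
  -- `M'` is periodic, so constant, so `M` is affine
  have hd' : Differentiable ℂ (deriv M) := fun x => (hM.analyticAt x).deriv.differentiableAt
  have hdper : ∀ z, ∀ l ∈ L.lattice, deriv M (z + l) = deriv M z := by
    have hp1 : Function.Periodic (deriv M) L.ω₁ := fun z => by
      rw [← deriv_comp_add_const (f := M) L.ω₁ z]
      exact congrArg (fun F => deriv F z) (funext hM1)
    have hp2 : Function.Periodic (deriv M) L.ω₂ := fun z => by
      rw [← deriv_comp_add_const (f := M) L.ω₂ z]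
      conv_lhs => rw [show (fun u => M (u + L.ω₂)) = fun u => M u + C from funext hM2]
      exact deriv_add_const _
    intro z l hl
    obtain ⟨a, b, rfl⟩ := PeriodPair.mem_lattice.mp hl
    exact ((hp1.int_mul a).add_period (hp2.int_mul b)) z
  have hconst := HT.Ell.apply_eq_of_differentiable_periodic L hd' hdper
  set m := deriv M 0
  have haff : ∀ z, M z = M 0 + m * z := by
    intro z
    have h := is_const_of_deriv_eq_zero (f := fun u => M u - m * u)
      (hM.sub (differentiable_id.const_mul m)) (fun u => by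
        rw [((hM u).hasDerivAt.fun_sub ((hasDerivAt_id' u).const_mul m)).deriv, mul_one, hconst u 0]
        exact sub_self _) z 0
    linear_combination h
  have hm : m = 0 := by
    have := hM1 0
    rw [haff, haff 0] at this
    have h2 : m * L.ω₁ = 0 := by linear_combination this
    exact (mul_eq_zero.mp h2).resolve_right (ω₁_ne_zero L)
  refine ⟨fun z => by rw [haff z, hm, zero_mul, add_zero], ?_⟩
  have := hM2 0
  rw [haff, haff 0, hm] at this
  linear_combination -this

/-- A periodic function with at most one simple pole modulo the lattice is constant. -/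
theorem const_of_simple_pole {f : ℂ → ℂ} (hper : ∀ z, ∀ l ∈ L.lattice, f (z + l) = f z) {w : ℂ}
    (hreg : ∀ x, x - w ∉ L.lattice → ∃ g : ℂ → ℂ, AnalyticAt ℂ g x ∧ f =ᶠ[𝓝[≠] x] g)
    (hpole : ∃ g : ℂ → ℂ, AnalyticAt ℂ g w ∧ f =ᶠ[𝓝[≠] w] fun z => g z / (z - w)) :
    ∃ c, ∀ x, ContinuousAt f x → f x = c := by
  obtain ⟨g, hg, hfg⟩ := hpole
  obtain ⟨M, hM, hfM⟩ := exists_entire (exists_regular_sub_zeta L hor hper hreg hg hfg)
  have hM1 : ∀ z, M (z + L.ω₁) = M z := fun z => by
    rw [shift_of_sub_zeta L hper hM hfM L.ω₁_mem_lattice (c := 0)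
      (fun u _ => by rw [zeta_add_ω₁, add_zero]) z]
    ring
  have hM2 : ∀ z, M (z + L.ω₂) = M z + g w * (2 * π * I / L.ω₁) := fun z => by
    rw [shift_of_sub_zeta L hper hM hfM L.ω₂_mem_lattice (fun u hu => by
      rw [zeta_add_ω₂ L hor hu, sub_eq_add_neg]) z]
    ring
  obtain ⟨hconst, hC⟩ := eq_const_of_translated L hM hM1 hM2
  have hr : g w = 0 :=
    (mul_eq_zero.mp hC).resolve_right (div_ne_zero Complex.two_pi_I_ne_zero (ω₁_ne_zero L))
  refine ⟨M 0, fun x hx => tendsto_nhds_unique (hx.tendsto.mono_left nhdsWithin_le_nhds)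
    (tendsto_const_nhds.congr' ((hfM x).mono fun z hz => ?_))⟩
  simp only [hr, zero_mul, sub_zero] at hz
  exact ((hconst z).symm.trans hz.symm)

end Fermat.EC.Weil
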