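import Fermat.Agent.EC.Weil.OnePole
import Fermat.Agent.HT.Ell.Uniform

/-!
# The line functions of Miller's algorithm as theta quotients

`step` and `vertical`; `Miller` multiplies them.
-/

set_option autoImplicit false

noncomputable section

open Filter Topology Set
open PeriodPair

namespace Fermat.EC.Weil

variable (L : PeriodPair) (hΔ : L.g₂ ^ 3 - 27 * L.g₃ ^ 2 ≠ 0)

/-- `℘` is invariant under periods. -/
lemma P_sub_lattice {z : ℂ} {l : ℂ} (hl : l ∈ L.lattice) : ℘[L] (z + l) = ℘[L] z :=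
  L.weierstrassP_add_coe z ⟨l, hl⟩

/-- `℘'` is invariant under periods. -/
lemma P'_sub_lattice {z : ℂ} {l : ℂ} (hl : l ∈ L.lattice) : ℘'[L] (z + l) = ℘'[L] z :=
  L.derivWeierstrassP_add_coe z ⟨l, hl⟩

include hΔ in
/-- `℘ z = ℘ w` forces `z ≡ ± w` modulo the lattice. -/
lemma sub_or_add_mem_of_P_eq {z w : ℂ} (hz : z ∉ L.lattice) (hw : w ∉ L.lattice)
    (h : ℘[L] z = ℘[L] w) : z - w ∈ L.lattice ∨ z + w ∈ L.lattice := by
  have key : HT.Ell.ptHom L hΔ z = HT.Ell.ptHom L hΔ w ∨
      HT.Ell.ptHom L hΔ z = -HT.Ell.ptHom L hΔ w := by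
    change HT.Ell.pt L hΔ z = HT.Ell.pt L hΔ w ∨ HT.Ell.pt L hΔ z = -HT.Ell.pt L hΔ w
    rw [HT.Ell.pt_of_notMem L hΔ hz, HT.Ell.pt_of_notMem L hΔ hw]
    exact WeierstrassCurve.Affine.Point.X_eq_iff.mp h
  rcases key with k | k
  · exact Or.inl ((HT.Ell.ptHom_eq_zero_iff L hΔ _).mp (by rw [map_sub, k, sub_self]))
  · exact Or.inr ((HT.Ell.ptHom_eq_zero_iff L hΔ _).mp (by rw [map_add, k, neg_add_cancel]))

include hΔ in
/-- `℘'` vanishes only at half periods. -/
lemma P'_ne_zero {w : ℂ} (hw : w ∉ L.lattice) (hw2 : w + w ∉ L.lattice) : ℘'[L] w ≠ 0 := by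
  intro h
  apply hw2
  refine (HT.Ell.ptHom_eq_zero_iff L hΔ _).mp ?_
  rw [map_add]
  change HT.Ell.pt L hΔ w + HT.Ell.pt L hΔ w = 0
  rw [HT.Ell.pt_of_notMem L hΔ hw]
  exact WeierstrassCurve.Affine.Point.add_self_of_Y_eq
    (by simp [WeierstrassCurve.Affine.negY, HT.Ell.curve, h])

/-- The slope through `pt z` and `-pt w`. -/
def slopeFun (w z : ℂ) : ℂ := (℘'[L] z + ℘'[L] w) / 2 / (℘[L] z - ℘[L] w)

/-- The slope of the tangent at `pt z`. -/
def tangentFun (z : ℂ) : ℂ := (6 * ℘[L] z ^ 2 - L.g₂ / 2) / 2 / ℘'[L] z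

/-- Near any point, away from it, no point is a period. -/
lemma eventually_notMem (x : ℂ) : ∀ᶠ z in 𝓝[≠] x, z ∉ L.lattice := by
  simpa using eventually_sub_notMem_lattice L 0 x

/-- `℘` and `℘'` are analytic off the lattice. -/
lemma analyticAt_P {x : ℂ} (hx : x ∉ L.lattice) :
    AnalyticAt ℂ ℘[L] x ∧ AnalyticAt ℂ ℘'[L] x :=
  ⟨L.analyticOnNhd_weierstrassP x hx, L.analyticOnNhd_derivWeierstrassP x hx⟩

/-- The derivative of `℘` is `℘'`. -/
lemma deriv_P {x : ℂ} : deriv ℘[L] x = ℘'[L] x := by rw [deriv_weierstrassP]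

include hΔ in
/-- Removable singularity of the slope function at `x` with `℘ x = ℘ w`, `℘' x = -℘' w`. -/
lemma slope_removable {w x : ℂ} (hx : x ∉ L.lattice) (hx2 : x + x ∉ L.lattice)
    (h1 : ℘[L] x = ℘[L] w) (h2 : ℘'[L] x = -℘'[L] w) :
    ∃ g : ℂ → ℂ, AnalyticAt ℂ g x ∧ g x = tangentFun L x ∧ slopeFun L w =ᶠ[𝓝[≠] x] g := by
  obtain ⟨hP, hP'⟩ := analyticAt_P L hx
  refine ⟨fun z => dslope ℘'[L] x z / 2 / dslope ℘[L] x z,
    ((analyticAt_dslope hP').div analyticAt_const two_ne_zero).div (analyticAt_dslope hP) ?_,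
    ?_, ?_⟩
  · rw [dslope_same, deriv_P]; exact P'_ne_zero L hΔ hx hx2
  · simp only [dslope_same, deriv_P, tangentFun,
      (HT.Ell.hasDerivAt_derivWeierstrassP L hx).deriv]
  · filter_upwards [self_mem_nhdsWithin] with z hz
    have hne : z - x ≠ 0 := sub_ne_zero.mpr hz
    rw [slopeFun, dslope_eq_div hz, dslope_eq_div hz, ← h1, h2, sub_neg_eq_add]
    by_cases hd : ℘[L] z - ℘[L] x = 0
    · simp [hd]
    · field_simp

/-- Transport a local description along the lattice. -/
lemma removable_translate {f : ℂ → ℂ} (hper : ∀ z, ∀ l ∈ L.lattice, f (z + l) = f z) {x y : ℂ}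
    (hxy : x - y ∈ L.lattice) (h : ∃ g : ℂ → ℂ, AnalyticAt ℂ g y ∧ f =ᶠ[𝓝[≠] y] g) :
    ∃ g : ℂ → ℂ, AnalyticAt ℂ g x ∧ f =ᶠ[𝓝[≠] x] g := by
  obtain ⟨g, hg, hfg⟩ := h
  refine ⟨fun z => g (z - (x - y)), hg.comp_of_eq (by fun_prop) (by ring), ?_⟩
  have ht : Tendsto (fun z => z - (x - y)) (𝓝[≠] x) (𝓝[≠] y) := by
    simpa using tendsto_sub_punctured (x - y) x
  filter_upwards [ht.eventually hfg] with z hz
  rw [← hz]
  conv_lhs => rw [show z = z - (x - y) + (x - y) by ring]
  exact hper _ _ hxy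

variable (hor : 0 < (ltau L).im)
include hor

/-- `th` does not vanish off the lattice. -/
lemma th_ne {z : ℂ} (hz : z ∉ L.lattice) : th L z ≠ 0 := fun e => hz ((th_eq_zero_iff L hor z).mp e)

/-- `z ↦ th (z - a)` is analytic. -/
lemma analyticAt_th_sub (a x : ℂ) : AnalyticAt ℂ (fun z => th L (z - a)) x :=
  (th_analyticAt L hor _).comp_of_eq (by fun_prop) rfl

omit hor in
/-- The difference quotient of `th` at `0`, evaluated at `z - a`. -/
lemma dslope_th_sub {a z : ℂ} (hz : z ≠ a) : dslope (th L) 0 (z - a) = th L (z - a) / (z - a) := by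
  rw [dslope_eq_div (sub_ne_zero.mpr hz), th_zero, sub_zero, sub_zero]

omit hor in
/-- The constant of one step of Miller's algorithm. -/
def stepCoeff (a b w : ℂ) : ℂ := th L (-a) * th L (-b) / (deriv (th L) 0 * th L (-w))

omit hor in
/-- The theta quotient of one step plus its multiple of the slope function. -/
def stepFun (a b w u : ℂ) : ℂ :=
  th L (u - a) * th L (u - b) / (th L u * th L (u - w)) + stepCoeff L a b w * slopeFun L w u

/-- `stepFun` is periodic. -/
lemma stepFun_periodic {a b w : ℂ} (hab : a + b = w) (u : ℂ) {l : ℂ} (hl : l ∈ L.lattice) :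
    stepFun L a b w (u + l) = stepFun L a b w u := by
  obtain ⟨i, j, rfl⟩ := PeriodPair.mem_lattice.mp hl
  simp only [stepFun, slopeFun, P_sub_lattice L hl, P'_sub_lattice L hl]
  rw [show u + (i * L.ω₁ + j * L.ω₂) - a = u - a + (i * L.ω₁ + j * L.ω₂) by ring,
    show u + (i * L.ω₁ + j * L.ω₂) - b = u - b + (i * L.ω₁ + j * L.ω₂) by ring,
    show u + (i * L.ω₁ + j * L.ω₂) - w = u - w + (i * L.ω₁ + j * L.ω₂) by ring,
    th_add L hor, th_add L hor, th_add L hor, th_add L hor]
  congr 1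
  -- the automorphy factors cancel since `a + b = w`
  have hexp : e2pi (-((j : ℂ) * ((u - a) / L.ω₁))) * e2pi (-((j : ℂ) * ((u - b) / L.ω₁))) =
      e2pi (-((j : ℂ) * (u / L.ω₁))) * e2pi (-((j : ℂ) * ((u - w) / L.ω₁))) := by
    rw [← e2pi_add, ← e2pi_add, ← hab]; ring_nf
  have hS := shiftFactor_ne_zero (τ := ltau L) j
  have h1 := e2pi_ne_zero (-((j : ℂ) * (u / L.ω₁)))
  have h2 := e2pi_ne_zero (-((j : ℂ) * ((u - w) / L.ω₁)))
  by_cases h3 : th L u = 0
  · simp [h3]
  by_cases h4 : th L (u - w) = 0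
  · simp [h4]
  generalize e2pi (-((j : ℂ) * ((u - a) / L.ω₁))) = A1 at hexp ⊢
  generalize e2pi (-((j : ℂ) * ((u - b) / L.ω₁))) = B1 at hexp ⊢
  generalize e2pi (-((j : ℂ) * (u / L.ω₁))) = U1 at hexp h1 ⊢
  generalize e2pi (-((j : ℂ) * ((u - w) / L.ω₁))) = W1 at hexp h2 ⊢
  field_simp
  linear_combination (th L (u - a) * th L (u - b)) * hexp

/-- The theta quotient is analytic off the translates of its poles. -/
lemma analyticAt_stepQuot (a b : ℂ) {w x : ℂ} (hx : x ∉ L.lattice) (hxw : x - w ∉ L.lattice) :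
    AnalyticAt ℂ (fun u => th L (u - a) * th L (u - b) / (th L u * th L (u - w))) x :=
  ((analyticAt_th_sub L hor a x).mul (analyticAt_th_sub L hor b x)).div
    ((th_analyticAt L hor x).mul (analyticAt_th_sub L hor w x))
    (mul_ne_zero (th_ne L hor hx) (th_ne L hor hxw))

/-- `stepFun` is analytic where `℘` differs from `℘ w`. -/
lemma analyticAt_stepFun_of_P_ne (a b : ℂ) {w x : ℂ} (hx : x ∉ L.lattice)
    (hxw : x - w ∉ L.lattice) (hd : ℘[L] x - ℘[L] w ≠ 0) : AnalyticAt ℂ (stepFun L a b w) x :=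
  (analyticAt_stepQuot L hor a b hx hxw).add (analyticAt_const.mul
    ((((analyticAt_P L hx).2.add analyticAt_const).div analyticAt_const two_ne_zero).div
      ((analyticAt_P L hx).1.sub analyticAt_const) hd))

include hΔ in
/-- `stepFun` is analytic away from `±w` and the lattice. -/
lemma analyticAt_stepFun (a b : ℂ) {w x : ℂ} (hw : w ∉ L.lattice) (hx : x ∉ L.lattice)
    (hx1 : x - w ∉ L.lattice) (hx2 : x + w ∉ L.lattice) : AnalyticAt ℂ (stepFun L a b w) x :=
  analyticAt_stepFun_of_P_ne L hor a b hx hx1 fun e =>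
    (sub_or_add_mem_of_P_eq L hΔ hx hw (sub_eq_zero.mp e)).elim hx1 hx2

/-- The singularity of `stepFun` at `0` is removable. -/
lemma stepFun_removable_zero (a b : ℂ) {w : ℂ} (hw : w ∉ L.lattice) :
    ∃ g : ℂ → ℂ, AnalyticAt ℂ g 0 ∧ stepFun L a b w =ᶠ[𝓝[≠] (0 : ℂ)] g := by
  set r0 := stepCoeff L a b w with hr0
  have hnegw : -w ∉ L.lattice := fun h => hw (by simpa using neg_mem h)
  -- near `0`, `u * stepFun u` extends to `gR + r0 * g0`, which vanishes at `0`
  set g0 : ℂ → ℂ := fun u => (u ^ 3 * (℘'[L - (0 : ℂ)] u + ℘'[L] w) / 2 - 1) /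
    (1 + u ^ 2 * (℘[L - (0 : ℂ)] u - ℘[L] w)) with hg0
  set gR : ℂ → ℂ := fun u => th L (u - a) * th L (u - b) /
    (dslope (th L) 0 u * th L (u - w)) with hgR
  have a0 : AnalyticAt ℂ g0 0 := by
    refine AnalyticAt.div (by fun_prop) (by fun_prop) (by simp)
  have aR : AnalyticAt ℂ gR 0 :=
    ((analyticAt_th_sub L hor a 0).mul (analyticAt_th_sub L hor b 0)).div
      ((analyticAt_dslope (th_analyticAt L hor 0)).mul (analyticAt_th_sub L hor w 0))
      (mul_ne_zero (dslope_th_ne L hor) (by simpa using th_ne L hor hnegw))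
  have hv : gR 0 + r0 * g0 0 = 0 := by
    simp only [hgR, hg0, hr0, stepCoeff, dslope_same]
    simp
  refine ⟨dslope (fun u => gR u + r0 * g0 u) 0,
    analyticAt_dslope (aR.add (analyticAt_const.mul a0)), ?_⟩
  filter_upwards [self_mem_nhdsWithin, eventually_notMem L 0] with u hu hul
  have hu0 : u ≠ 0 := hu
  rw [dslope_eq_div hu, hv, sub_zero, sub_zero]
  have e1 : dslope (th L) 0 u = th L u / u := by
    rw [dslope_eq_div hu0, th_zero, sub_zero, sub_zero]
  have e2 := L.weierstrassPExcept_def ⟨0, zero_mem _⟩ u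
  have e3 := L.derivWeierstrassPExcept_def ⟨0, zero_mem _⟩ u
  simp only [sub_zero, ne_eq, OfNat.ofNat_ne_zero, not_false_eq_true, zero_pow, div_zero] at e2 e3
  have e2' : ℘[L] u = ℘[L - (0 : ℂ)] u + 1 / u ^ 2 := by linear_combination -e2
  have e3' : ℘'[L] u = ℘'[L - (0 : ℂ)] u - 2 / u ^ 3 := by linear_combination -e3
  simp only [stepFun, ← hr0, hgR, hg0, e1, slopeFun, e2', e3']
  by_cases hd : 1 + u ^ 2 * (℘[L - (0 : ℂ)] u - ℘[L] w) = 0
  · have : ℘[L - (0 : ℂ)] u + 1 / u ^ 2 - ℘[L] w = 0 := by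
      field_simp; linear_combination hd
    simp only [hd, this, div_zero, mul_zero, add_zero]
    field_simp
  · have : ℘[L - (0 : ℂ)] u + 1 / u ^ 2 - ℘[L] w =
        (1 + u ^ 2 * (℘[L - (0 : ℂ)] u - ℘[L] w)) / u ^ 2 := by field_simp; ring
    rw [this]
    field_simp
    ring

include hΔ in
/-- Off the translates of `w` the singularities of `stepFun` are removable. -/
lemma stepFun_removable {a b w : ℂ} (hab : a + b = w) (hw : w ∉ L.lattice)
    (hw2 : w + w ∉ L.lattice) {x : ℂ} (hxw : x - w ∉ L.lattice) :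
    ∃ g : ℂ → ℂ, AnalyticAt ℂ g x ∧ stepFun L a b w =ᶠ[𝓝[≠] x] g := by
  by_cases hx : x ∈ L.lattice
  · exact removable_translate L (fun u l hl => stepFun_periodic L hor hab u hl)
      (by simpa using hx) (stepFun_removable_zero L hor a b hw)
  by_cases hd : ℘[L] x - ℘[L] w = 0
  · rcases sub_or_add_mem_of_P_eq L hΔ hx hw (sub_eq_zero.mp hd) with h | h
    · exact absurd h hxw
    have e1 : ℘'[L] x = -℘'[L] w := by
      rw [show x = -w + (x + w) by ring, P'_sub_lattice L h, L.derivWeierstrassP_neg]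
    have hx2 : x + x ∉ L.lattice := fun h' => hw2 (by
      have := sub_mem (add_mem h h) h'
      rwa [show x + w + (x + w) - (x + x) = w + w by ring] at this)
    obtain ⟨g, hg, -, hgeq⟩ := slope_removable L hΔ hx hx2 (sub_eq_zero.mp hd) e1
    refine ⟨_, (analyticAt_stepQuot L hor a b hx hxw).add
      ((analyticAt_const (v := stepCoeff L a b w)).mul hg), ?_⟩
    filter_upwards [hgeq] with u hu
    simp only [stepFun, hu, Pi.add_apply, Pi.mul_apply]
  · exact ⟨_, analyticAt_stepFun_of_P_ne L hor a b hx hxw hd, EventuallyEq.rfl⟩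

include hΔ in
/-- `stepFun` has at most a simple pole at `w`. -/
lemma stepFun_simple_pole (a b : ℂ) {w : ℂ} (hw : w ∉ L.lattice) (hw2 : w + w ∉ L.lattice) :
    ∃ g : ℂ → ℂ, AnalyticAt ℂ g w ∧ stepFun L a b w =ᶠ[𝓝[≠] w] fun u => g u / (u - w) := by
  obtain ⟨hP, hP'⟩ := analyticAt_P L hw
  have hφ : AnalyticAt ℂ (fun u => dslope (th L) 0 (u - w)) w :=
    (analyticAt_dslope (th_analyticAt L hor 0)).comp_of_eq (by fun_prop) (sub_self w)
  refine ⟨fun u => th L (u - a) * th L (u - b) / (th L u * dslope (th L) 0 (u - w)) +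
    stepCoeff L a b w * ((℘'[L] u + ℘'[L] w) / 2 / dslope ℘[L] w u), ?_, ?_⟩
  · refine (((analyticAt_th_sub L hor a w).mul (analyticAt_th_sub L hor b w)).div
      ((th_analyticAt L hor w).mul hφ)
      (mul_ne_zero (th_ne L hor hw) (by simpa using dslope_th_ne L hor))).add
      (analyticAt_const.mul (((hP'.add analyticAt_const).div analyticAt_const two_ne_zero).div
        (analyticAt_dslope hP) ?_))
    rw [dslope_same, deriv_P]; exact P'_ne_zero L hΔ hw hw2
  · filter_upwards [self_mem_nhdsWithin] with u hu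
    have hne : u - w ≠ 0 := sub_ne_zero.mpr hu
    simp only [stepFun, slopeFun, dslope_th_sub L hu, dslope_eq_div hu]
    by_cases h3 : th L u = 0
    · by_cases hd : ℘[L] u - ℘[L] w = 0
      · simp [h3, hd]
      · simp only [h3, zero_mul, div_zero, zero_add]; field_simp
    by_cases h4 : th L (u - w) = 0
    · by_cases hd : ℘[L] u - ℘[L] w = 0
      · simp [h4, hd]
      · simp only [h4, zero_div, mul_zero, div_zero, zero_add]; field_simp
    by_cases hd : ℘[L] u - ℘[L] w = 0
    · simp only [hd, zero_div, div_zero, mul_zero, add_zero]; field_simp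
    · field_simp

omit hor in
/-- Near a point almost every point avoids the lattice and the translates by `±w`. -/
lemma eventually_notMem_translates (b w : ℂ) :
    ∀ᶠ u in 𝓝[≠] b, u ∉ L.lattice ∧ u - w ∉ L.lattice ∧ u + w ∉ L.lattice := by
  filter_upwards [eventually_notMem L b, eventually_sub_notMem_lattice L w b,
    eventually_sub_notMem_lattice L (-w) b] with u h1 h2 h3
    using ⟨h1, h2, by rwa [sub_neg_eq_add] at h3⟩

include hΔ in
/-- A constant value of `stepFun` is `stepCoeff` times the slope at `b`. -/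
lemma stepFun_const_eq {a b w : ℂ} (hab : a + b = w) (ha : a ∉ L.lattice) (hb : b ∉ L.lattice)
    (hw : w ∉ L.lattice) {c : ℂ}
    (hc : (b + w ∉ L.lattice ∧ c = slopeFun L w b) ∨ (b + w ∈ L.lattice ∧ c = tangentFun L b))
    {C : ℂ} (hC : ∀ x, ContinuousAt (stepFun L a b w) x → stepFun L a b w x = C) :
    C = stepCoeff L a b w * c := by
  have hbw : b - w ∉ L.lattice := fun h => ha (by
    rw [← hab] at h
    simpa using neg_mem h)
  have hRb : th L (b - a) * th L (b - b) / (th L b * th L (b - w)) = 0 := by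
    rw [sub_self, th_zero]; simp
  -- evaluate at `b`, where the theta quotient vanishes
  rcases hc with ⟨hbw2, rfl⟩ | ⟨hbw2, rfl⟩
  · rw [← hC b (analyticAt_stepFun L hΔ hor a b hw hb hbw hbw2).continuousAt]
    simp only [stepFun, hRb, zero_add]
  · have hb2 : b + b ∉ L.lattice := fun h => hbw (by
      simpa [show b + b - (b + w) = b - w by ring] using sub_mem h hbw2)
    have e0 : ℘[L] b = ℘[L] w := by
      rw [show b = -w + (b + w) by ring, P_sub_lattice L hbw2, L.weierstrassP_neg]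
    have e1 : ℘'[L] b = -℘'[L] w := by
      rw [show b = -w + (b + w) by ring, P'_sub_lattice L hbw2, L.derivWeierstrassP_neg]
    obtain ⟨g, hg, hgb, hgeq⟩ := slope_removable L hΔ hb hb2 e0 e1
    have hG := (analyticAt_stepQuot L hor a b hb hbw).add
      (analyticAt_const (v := stepCoeff L a b w) |>.mul hg)
    have heq : stepFun L a b w =ᶠ[𝓝[≠] b] fun _ => C := by
      filter_upwards [eventually_notMem_translates L b w] with u ⟨hu, hu1, hu2⟩
      exact hC u (analyticAt_stepFun L hΔ hor a b hw hu hu1 hu2).continuousAt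
    have h2 : stepFun L a b w =ᶠ[𝓝[≠] b] fun u =>
        th L (u - a) * th L (u - b) / (th L u * th L (u - w)) + stepCoeff L a b w * g u :=
      hgeq.mono (fun u hu => by simp only [stepFun, hu])
    have := tendsto_nhds_unique
      ((hG.continuousAt.tendsto.mono_left nhdsWithin_le_nhds).congr' h2.symm)
      (tendsto_const_nhds.congr' heq.symm)
    rw [← this]
    simp only [Pi.add_apply, Pi.mul_apply, hRb, hgb, zero_add]

include hΔ in
/-- **One step of Miller's algorithm.** A quotient of theta functions at `a + b = w` is a constant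
times a difference of slopes. -/
theorem step {a b w : ℂ} (hab : a + b = w) (ha : a ∉ L.lattice) (hb : b ∉ L.lattice)
    (hw : w ∉ L.lattice) (hw2 : w + w ∉ L.lattice) (c : ℂ)
    (hc : (b + w ∉ L.lattice ∧ c = slopeFun L w b) ∨ (b + w ∈ L.lattice ∧ c = tangentFun L b))
    {z : ℂ} (hz : z ∉ L.lattice) (hz1 : z - w ∉ L.lattice) (hz2 : z + w ∉ L.lattice) :
    th L (z - a) * th L (z - b) / (th L z * th L (z - w)) =
      -(th L (-a) * th L (-b) / (deriv (th L) 0 * th L (-w))) * (slopeFun L w z - c) := by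
  obtain ⟨C, hC⟩ := const_of_simple_pole L hor (fun u l hl => stepFun_periodic L hor hab u hl)
    (fun x hx => stepFun_removable L hΔ hor hab hw hw2 hx) (stepFun_simple_pole L hΔ hor a b hw hw2)
  have hzC := hC z (analyticAt_stepFun L hΔ hor a b hw hz hz1 hz2).continuousAt
  rw [stepFun_const_eq L hΔ hor hab ha hb hw hc hC] at hzC
  simp only [stepFun, stepCoeff] at hzC
  linear_combination hzC

/-- `℘ z - ℘ u` as a theta quotient. -/
theorem vertical {u z : ℂ} (hu : u ∉ L.lattice) (hz : z ∉ L.lattice) :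
    th L (z - u) * th L (z + u) / th L z ^ 2 =
      th L (-u) * th L u / deriv (th L) 0 ^ 2 * (℘[L] z - ℘[L] u) := by
  set e := th L (-u) * th L u / deriv (th L) 0 ^ 2 with he
  set f : ℂ → ℂ := fun v => th L (v - u) * th L (v + u) / th L v ^ 2 - e * ℘[L] v with hf
  -- `f` is periodic: the automorphy factors cancel
  have hper : ∀ v, ∀ l ∈ L.lattice, f (v + l) = f v := by
    intro v l hl
    obtain ⟨i, j, rfl⟩ := PeriodPair.mem_lattice.mp hl
    simp only [hf, P_sub_lattice L hl]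
    rw [show v + (i * L.ω₁ + j * L.ω₂) - u = v - u + (i * L.ω₁ + j * L.ω₂) by ring,
      show v + (i * L.ω₁ + j * L.ω₂) + u = v + u + (i * L.ω₁ + j * L.ω₂) by ring,
      th_add L hor, th_add L hor, th_add L hor]
    congr 1
    have hexp : e2pi (-((j : ℂ) * ((v - u) / L.ω₁))) * e2pi (-((j : ℂ) * ((v + u) / L.ω₁))) =
        e2pi (-((j : ℂ) * (v / L.ω₁))) ^ 2 := by
      rw [sq, ← e2pi_add, ← e2pi_add]; ring_nf
    have hS := shiftFactor_ne_zero (τ := ltau L) j
    have h1 := e2pi_ne_zero (-((j : ℂ) * (v / L.ω₁)))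
    by_cases h3 : th L v = 0
    · simp [h3]
    generalize e2pi (-((j : ℂ) * ((v - u) / L.ω₁))) = A1 at hexp ⊢
    generalize e2pi (-((j : ℂ) * ((v + u) / L.ω₁))) = B1 at hexp ⊢
    generalize e2pi (-((j : ℂ) * (v / L.ω₁))) = U1 at hexp h1 ⊢
    field_simp
    linear_combination (th L (v - u) * th L (v + u)) * hexp
  have hnum : ∀ x, AnalyticAt ℂ (fun v => th L (v - u) * th L (v + u)) x := fun x =>
    (analyticAt_th_sub L hor u x).mul ((th_analyticAt L hor _).comp_of_eq (by fun_prop) rfl)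
  have han : ∀ x, x ∉ L.lattice → AnalyticAt ℂ f x := fun x hx =>
    ((hnum x).div ((th_analyticAt L hor x).pow 2) (pow_ne_zero 2 (th_ne L hor hx))).sub
      (analyticAt_const.mul (analyticAt_P L hx).1)
  -- at most a simple pole at `0`, so `f` is constant; compare `z` with `u`
  obtain ⟨C, hC⟩ := const_of_simple_pole L hor hper (w := 0)
    (fun x hx => ⟨f, han x (by simpa using hx), EventuallyEq.rfl⟩) (by
      set gS : ℂ → ℂ := fun v => th L (v - u) * th L (v + u) / dslope (th L) 0 v ^ 2 with hgS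
      have aS : AnalyticAt ℂ gS 0 := (hnum 0).div
        ((analyticAt_dslope (th_analyticAt L hor 0)).pow 2) (pow_ne_zero 2 (dslope_th_ne L hor))
      have hv : gS 0 = e := by simp only [hgS, he, dslope_same]; simp
      refine ⟨fun v => dslope gS 0 v - e * (v * ℘[L - (0 : ℂ)] v), (analyticAt_dslope aS).sub
        (analyticAt_const.mul (analyticAt_id.mul (L.analyticAt_weierstrassPExcept 0))), ?_⟩
      filter_upwards [self_mem_nhdsWithin, eventually_notMem L 0] with v hv0 hvl
      have e1 : dslope (th L) 0 v = th L v / v := by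
        rw [dslope_eq_div hv0, th_zero, sub_zero, sub_zero]
      have e2 := L.weierstrassPExcept_def ⟨0, zero_mem _⟩ v
      simp only [sub_zero, ne_eq, OfNat.ofNat_ne_zero, not_false_eq_true, zero_pow, div_zero] at e2
      rw [dslope_eq_div hv0, hv]
      simp only [hf, hgS, e1, e2, sub_zero]
      have hθ := th_ne L hor hvl
      have hv' : v ≠ 0 := hv0
      field_simp
      ring)
  have h1 := hC z (han z hz).continuousAt
  have h2 := hC u (han u hu).continuousAt
  simp only [hf, sub_self, th_zero, zero_mul, zero_div, zero_sub] at h1 h2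
  linear_combination h1 - h2

end Fermat.EC.Weil
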