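import Mathlib.NumberTheory.ModularForms.DedekindEta
import Mathlib.Analysis.Calculus.Deriv.Shift

/-!
# An elementary theta function

`θ(τ, z) = (1 - e z) ∏_{n ≥ 1} (1 - qⁿ e z)(1 - qⁿ / e z)` with `e z = exp (2 π i z)`, `q = e τ`:
entire, zeros exactly on `ℤ + τ ℤ`.
-/

set_option autoImplicit false

noncomputable section

open Complex Filter Topology Set
open scoped Real

namespace Fermat.EC.Weil

/-- `exp (2 π i z)`. -/
def e2pi (z : ℂ) : ℂ := cexp (2 * π * I * z)

/-- `e2pi` turns sums into products. -/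
lemma e2pi_add (z w : ℂ) : e2pi (z + w) = e2pi z * e2pi w := by
  rw [e2pi, e2pi, e2pi, ← Complex.exp_add]; ring_nf

/-- `e2pi 0 = 1`. -/
lemma e2pi_zero : e2pi 0 = 1 := by simp [e2pi]

/-- `e2pi` never vanishes. -/
lemma e2pi_ne_zero (z : ℂ) : e2pi z ≠ 0 := Complex.exp_ne_zero _

/-- `e2pi (-z)` is the inverse of `e2pi z`. -/
lemma e2pi_neg (z : ℂ) : e2pi (-z) = (e2pi z)⁻¹ := by
  rw [e2pi, e2pi, ← Complex.exp_neg]; ring_nf

/-- `e2pi` turns differences into quotients. -/
lemma e2pi_sub (z w : ℂ) : e2pi (z - w) = e2pi z / e2pi w := by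
  rw [sub_eq_add_neg, e2pi_add, e2pi_neg, div_eq_mul_inv]

/-- `e2pi` is `1` on the integers. -/
lemma e2pi_int (m : ℤ) : e2pi m = 1 := by
  rw [e2pi, show 2 * π * I * (m : ℂ) = m * (2 * π * I) by ring]
  exact Complex.exp_int_mul_two_pi_mul_I m

/-- `e2pi z = 1` exactly for integral `z`. -/
lemma e2pi_eq_one_iff (z : ℂ) : e2pi z = 1 ↔ ∃ m : ℤ, z = m := by
  constructor
  · intro h
    obtain ⟨m, hm⟩ := Complex.exp_eq_one_iff.mp h
    exact ⟨m, mul_left_cancel₀ Complex.two_pi_I_ne_zero (hm.trans (mul_comm _ _))⟩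
  · rintro ⟨m, rfl⟩; exact e2pi_int m

/-- `e2pi (k z)` is the `k`-th power of `e2pi z`. -/
lemma e2pi_nat_mul (k : ℕ) (z : ℂ) : e2pi (k * z) = e2pi z ^ k := by
  rw [e2pi, e2pi, ← Complex.exp_nat_mul]; ring_nf

/-- `e2pi (k z)` is the `k`-th power of `e2pi z`, for integral `k`. -/
lemma e2pi_int_mul (k : ℤ) (z : ℂ) : e2pi (k * z) = e2pi z ^ k := by
  rw [e2pi, e2pi, ← Complex.exp_int_mul]; ring_nf

/-- `e2pi` is entire. -/
@[fun_prop]
lemma differentiable_e2pi : Differentiable ℂ e2pi := by unfold e2pi; fun_prop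

/-- The derivative of `e2pi` is `2 π i e2pi`. -/
lemma hasDerivAt_e2pi (z : ℂ) : HasDerivAt e2pi (2 * π * I * e2pi z) z := by
  have h := ((hasDerivAt_id z).const_mul (2 * π * I)).cexp
  simp only [id, mul_one] at h
  exact h.congr_deriv (by rw [e2pi]; ring)

/-- The nome `e2pi τ` has norm less than `1` for `0 < im τ`. -/
lemma norm_e2pi_lt_one {τ : ℂ} (hτ : 0 < τ.im) : ‖e2pi τ‖ < 1 := by
  simpa [e2pi] using UpperHalfPlane.norm_exp_two_pi_I_lt_one ⟨τ, hτ⟩

/-- `∏_{n ≥ 1} (1 - qⁿ w)`. -/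
def qProd (q w : ℂ) : ℂ := ∏' n : ℕ, (1 - q ^ (n + 1) * w)

variable {q : ℂ}

/-- The series `∑ qⁿ w`, `n ≥ 1`, defining the product converges absolutely. -/
lemma summable_qTerm (hq : ‖q‖ < 1) (w : ℂ) : Summable fun n : ℕ => ‖-(q ^ (n + 1) * w)‖ := by
  simp only [norm_neg, norm_mul, norm_pow]
  exact ((summable_nat_add_iff 1).mpr
    (summable_geometric_of_lt_one (norm_nonneg q) hq)).mul_right ‖w‖

/-- The product `∏ (1 - qⁿ w)`, `n ≥ 1`, converges. -/
lemma multipliable_qTerm (hq : ‖q‖ < 1) (w : ℂ) :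
    Multipliable fun n : ℕ => 1 - q ^ (n + 1) * w := by
  simpa [sub_eq_add_neg] using multipliable_one_add_of_summable (summable_qTerm hq w)

/-- Splitting off the first factor: `qProd q w = (1 - q w) qProd q (q w)`. -/
lemma qProd_step (hq : ‖q‖ < 1) (w : ℂ) : qProd q w = (1 - q * w) * qProd q (q * w) := by
  have e : (fun n : ℕ => 1 - q ^ (n + 1 + 1) * w) = fun n : ℕ => 1 - q ^ (n + 1) * (q * w) := by
    funext n; ring
  rw [qProd, tprod_eq_zero_mul' (by rw [e]; exact multipliable_qTerm hq _), qProd, e]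
  simp

/-- The product vanishes only if one of its factors does. -/
lemma qProd_ne_zero (hq : ‖q‖ < 1) {w : ℂ} (hw : ∀ n : ℕ, q ^ (n + 1) * w ≠ 1) :
    qProd q w ≠ 0 := by
  have := tprod_one_add_ne_zero_of_summable (f := fun n : ℕ => -(q ^ (n + 1) * w))
    (fun n => by rw [← sub_eq_add_neg]; exact sub_ne_zero.mpr fun e => hw n e.symm)
    (summable_qTerm hq w)
  simpa [qProd, sub_eq_add_neg] using this

/-- The infinite product is entire for `|q| < 1`. -/
lemma differentiable_qProd (hq : ‖q‖ < 1) : Differentiable ℂ (qProd q) := by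
  have h : MultipliableLocallyUniformlyOn (fun (n : ℕ) (w : ℂ) => 1 - q ^ (n + 1) * w) univ := by
    use fun w => ∏' n : ℕ, (1 - q ^ (n + 1) * w)
    simp_rw [sub_eq_add_neg]
    apply hasProdLocallyUniformlyOn_of_forall_compact isOpen_univ
    intro K _ hcK
    obtain ⟨R, hR⟩ := hcK.isBounded.exists_norm_le
    refine (((summable_nat_add_iff 1).mpr
      (summable_geometric_of_lt_one (norm_nonneg q) hq)).mul_right R).hasProdUniformlyOn_nat_one_add
      hcK (.of_forall fun n x hx => ?_) (fun _ => by fun_prop)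
    rw [norm_neg, norm_mul, norm_pow]
    exact mul_le_mul_of_nonneg_left (hR x hx) (pow_nonneg (norm_nonneg _) _)
  have := h.hasProdLocallyUniformlyOn.differentiableOn
    (.of_forall fun _ => by simpa [Finset.prod_fn] using
      DifferentiableOn.finsetProd (fun _ _ => by fun_prop)) isOpen_univ
  exact differentiableOn_univ.mp this

/-- The theta function. -/
def theta (τ z : ℂ) : ℂ := (1 - e2pi z) * qProd (e2pi τ) (e2pi z) * qProd (e2pi τ) (e2pi (-z))

variable {τ : ℂ} (hτ : 0 < τ.im)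
include hτ

/-- `theta τ` is entire. -/
lemma differentiable_theta : Differentiable ℂ (theta τ) := by
  have h := differentiable_qProd (norm_e2pi_lt_one hτ)
  unfold theta
  exact (((differentiable_const _).sub differentiable_e2pi).mul (h.comp differentiable_e2pi)).mul
    (h.comp (differentiable_e2pi.comp differentiable_neg))

omit hτ in
/-- `theta τ` vanishes at `0`. -/
lemma theta_zero : theta τ 0 = 0 := by simp [theta, e2pi_zero]

omit hτ in
/-- `theta τ` has period `1`. -/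
lemma theta_add_one (z : ℂ) : theta τ (z + 1) = theta τ z := by
  have h1 : e2pi (1 : ℂ) = 1 := by simpa using e2pi_int 1
  rw [theta, theta, neg_add, e2pi_add, e2pi_add, h1, e2pi_neg 1, h1]
  simp

omit hτ in
/-- `theta τ (-z)` is `-e2pi (-z) * theta τ z`. -/
lemma theta_neg (z : ℂ) : theta τ (-z) = -e2pi (-z) * theta τ z := by
  have h := e2pi_ne_zero z
  rw [theta, theta, neg_neg, e2pi_neg]
  field_simp
  ring

/-- The automorphy factor of `theta τ` under translation by `τ`. -/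
lemma theta_add_tau (z : ℂ) : theta τ (z + τ) = -e2pi (-z) * theta τ z := by
  have hq := norm_e2pi_lt_one hτ
  have hz := e2pi_ne_zero z
  have hτ0 := e2pi_ne_zero τ
  rw [theta, theta, neg_add, e2pi_add, e2pi_add, e2pi_neg, e2pi_neg,
    qProd_step hq (e2pi z), qProd_step hq ((e2pi z)⁻¹ * (e2pi τ)⁻¹),
    mul_comm (e2pi z) (e2pi τ),
    show e2pi τ * ((e2pi z)⁻¹ * (e2pi τ)⁻¹) = (e2pi z)⁻¹ by field_simp]
  field_simp
  ring

omit hτ in
/-- The multiplier of `θ` under `z ↦ z + a + b τ`. -/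
def shiftFactor (τ : ℂ) (b : ℤ) : ℂ := (-1) ^ b * e2pi (-((b * (b - 1) / 2 : ℂ)) * τ)

/-- The automorphy factor of `theta` under translations by multiples of `τ`. -/
lemma theta_add_int_mul_tau (b : ℤ) (z : ℂ) :
    theta τ (z + b * τ) = shiftFactor τ b * e2pi (-((b : ℂ) * z)) * theta τ z := by
  -- induction on `b` from `theta_add_tau`
  induction b using Int.induction_on with
  | zero => simp [shiftFactor, e2pi_zero]
  | succ k ih =>
    have e : z + ((k : ℤ) + 1 : ℤ) * τ = z + (k : ℤ) * τ + τ := by push_cast; ring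
    rw [e, theta_add_tau hτ, ih, shiftFactor, shiftFactor, zpow_add₀ (by norm_num), zpow_one]
    rw [show -((((k : ℤ) + 1 : ℤ) : ℂ) * ((((k : ℤ) + 1 : ℤ) : ℂ) - 1) / 2) * τ =
      -(((k : ℤ) : ℂ) * (((k : ℤ) : ℂ) - 1) / 2) * τ + -((k : ℤ) * τ) by push_cast; ring,
      show -((((k : ℤ) + 1 : ℤ) : ℂ) * z) = -(((k : ℤ) : ℂ) * z) + -z by push_cast; ring,
      e2pi_add, e2pi_add, neg_add, e2pi_add]
    ring
  | pred k ih =>
    have h := theta_add_tau hτ (z + ((-(k : ℤ) - 1 : ℤ) : ℂ) * τ)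
    rw [show z + ((-(k : ℤ) - 1 : ℤ) : ℂ) * τ + τ = z + ((-(k : ℤ) : ℤ) : ℂ) * τ by push_cast; ring,
      ih] at h
    set T := theta τ (z + ((-(k : ℤ) - 1 : ℤ) : ℂ) * τ)
    have hne := e2pi_ne_zero (-(z + ((-(k : ℤ) - 1 : ℤ) : ℂ) * τ))
    apply mul_left_cancel₀ (neg_ne_zero.mpr hne)
    rw [← h, shiftFactor, shiftFactor, zpow_sub₀ (by norm_num : (-1 : ℂ) ≠ 0), zpow_one,
      show -((((-(k : ℤ) - 1 : ℤ)) : ℂ) * ((((-(k : ℤ) - 1 : ℤ)) : ℂ) - 1) / 2) * τ =
        -(((-(k : ℤ) : ℤ) : ℂ) * (((-(k : ℤ) : ℤ) : ℂ) - 1) / 2) * τ + -((k : ℂ) + 1) * τ by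
          push_cast; ring,
      show -((((-(k : ℤ) - 1 : ℤ)) : ℂ) * z) = -(((-(k : ℤ) : ℤ) : ℂ) * z) + z by push_cast; ring,
      e2pi_add, e2pi_add,
      show -(z + ((-(k : ℤ) - 1 : ℤ) : ℂ) * τ) = -z + ((k : ℂ) + 1) * τ by push_cast; ring,
      e2pi_add, e2pi_neg z, show -((k : ℂ) + 1) * τ =
        -(((k : ℂ) + 1) * τ) by ring, e2pi_neg (_ * τ)]
    have := e2pi_ne_zero z
    have := e2pi_ne_zero (((k : ℂ) + 1) * τ)
    field_simp
    ring_nf
    rw [mul_inv_cancel_right₀ (e2pi_ne_zero _)]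

omit hτ in
/-- `theta τ` is invariant under integer translations. -/
lemma theta_add_int (a : ℤ) (z : ℂ) : theta τ (z + a) = theta τ z :=
  by simpa using (Function.Periodic.int_mul (f := theta τ) (fun z => theta_add_one z) a) z

/-- The automorphy factor of `theta τ` under `z ↦ z + a + b τ`. -/
lemma theta_shift (a b : ℤ) (z : ℂ) :
    theta τ (z + a + b * τ) = shiftFactor τ b * e2pi (-((b : ℂ) * z)) * theta τ z := by
  rw [add_right_comm, theta_add_int, theta_add_int_mul_tau hτ]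

omit hτ in
/-- The multiplier `shiftFactor` never vanishes. -/
lemma shiftFactor_ne_zero (b : ℤ) : shiftFactor τ b ≠ 0 :=
  mul_ne_zero (zpow_ne_zero _ (by norm_num)) (e2pi_ne_zero _)

/-- The zeros of `theta` are the lattice points. -/
theorem theta_eq_zero_iff (z : ℂ) : theta τ z = 0 ↔ ∃ a b : ℤ, z = a + b * τ := by
  have hq := norm_e2pi_lt_one hτ
  constructor
  · intro h
    rw [theta, mul_eq_zero, mul_eq_zero] at h
    -- a factor `1 - qⁿ w` vanishes only if `w ≡ -n τ` modulo `ℤ`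
    have key : ∀ w, qProd (e2pi τ) (e2pi w) = 0 → ∃ a b : ℤ, w = a + b * τ := by
      intro w hw
      by_contra hc
      push Not at hc
      refine qProd_ne_zero hq (fun n e => ?_) hw
      rw [← e2pi_nat_mul, ← e2pi_add] at e
      obtain ⟨m, hm⟩ := (e2pi_eq_one_iff _).mp e
      exact hc m (-(n + 1 : ℕ) : ℤ) (by push_cast at hm ⊢; linear_combination hm)
    rcases h with (h | h) | h
    · obtain ⟨m, hm⟩ := (e2pi_eq_one_iff z).mp (sub_eq_zero.mp h).symm
      exact ⟨m, 0, by simpa using hm⟩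
    · exact key z h
    · obtain ⟨a, b, e⟩ := key (-z) h
      exact ⟨-a, -b, by push_cast; linear_combination -e⟩
  · rintro ⟨a, b, rfl⟩
    have := theta_shift hτ a b 0
    rw [zero_add] at this
    rw [this, theta_zero, mul_zero]

/-- The zero of `theta` at the origin is simple. -/
lemma deriv_theta_zero_ne : deriv (theta τ) 0 ≠ 0 := by
  have hq := norm_e2pi_lt_one hτ
  set P := fun z => qProd (e2pi τ) (e2pi z) * qProd (e2pi τ) (e2pi (-z)) with hP
  have hPd : DifferentiableAt ℂ P 0 :=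
    (((differentiable_qProd hq).comp differentiable_e2pi).mul
      ((differentiable_qProd hq).comp (differentiable_e2pi.comp differentiable_neg))) 0
  have hd : HasDerivAt (theta τ) (-(2 * π * I * e2pi 0) * P 0) 0 := by
    have h1 := ((hasDerivAt_e2pi 0).const_sub 1).mul hPd.hasDerivAt
    simp only [e2pi_zero, sub_self, zero_mul, add_zero] at h1 ⊢
    exact h1.congr_of_eventuallyEq (Eventually.of_forall fun z => by simp [theta, hP, mul_assoc])
  rw [hd.deriv, e2pi_zero, mul_one]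
  refine mul_ne_zero (neg_ne_zero.mpr Complex.two_pi_I_ne_zero) ?_
  simp only [hP, neg_zero, e2pi_zero]
  have : qProd (e2pi τ) 1 ≠ 0 := qProd_ne_zero hq fun n e => by
    rw [mul_one] at e
    have h1 : ‖e2pi τ‖ ^ (n + 1) < 1 := pow_lt_one₀ (norm_nonneg _) hq (by omega)
    rw [← norm_pow, e, norm_one] at h1
    exact lt_irrefl _ h1
  exact mul_ne_zero this this

end Fermat.EC.Weil
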